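/-
Project SS (statement S34, "unipotent inertia at `q ‖ N`"): THE TOP SEAMS (architect: helper6).

Chain:  `S34  ⟸  ss_Geom N q  ⟸  ss_KeyBar N q  ⟸  (descent to a number field and to the rigid
cover)  ⟸  semistable F-core + two-component model + node lemma`.

* `ss_Geom N q`   : a fixed nonzero multiple of `(σ - 1)²` kills the prime-to-`q` torsion of `J₀(N)`
                    for every `σ` in an inertia group at `q`  (consumer: `SS/Transfer.lean`);
* `ss_KeyBar N q` : the Kummer form: for `f ∈ Q̄(X₀(N))ˣ` with all orders divisible by `m`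
                    (`q ∤ m`), `(σ²f · f / (σ f)²)^d = c · r^m`         (consumer: `SS/Kummer.lean`).
-/
import Mathlib
import Fermat.Prelude.Def_ModularCurve_ArithmeticGalois
import Fermat.Prelude.Def_FLTPrelim_Ramification

set_option autoImplicit false

noncomputable section

namespace Fermat.Agent.SS

open ModularCurve AlgebraicCurve

/-- **Geometric seam.** There is `d ≠ 0` such that for every place `P` of `Q̄` over `q`, every
`σ` in the inertia group of `P` and every `m` prime to `q`, the endomorphism `d (σ - 1)²` kills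
`J₀(N)[m]`. -/
def ss_Geom (N : ℕ) [NeZero N] (q : ℕ) : Prop :=
  ∃ d : ℕ, d ≠ 0 ∧ ∀ P : ValuationSubring (AlgebraicClosure ℚ), P.LiesOverPrime q →
    ∀ σ ∈ P.inertiaSubgroupIn ℚ, ∀ m : ℕ, ¬ q ∣ m → ∀ z : JZero N, m • z = 0 →
      d • (σ • (σ • z) - 2 • (σ • z) + z) = 0

/-- The action of `σ ∈ Gal(Q̄/ℚ)` on the function field `Q̄(X₀(N))` (on the coefficients). -/
abbrev ss_act (N : ℕ) (σ : AlgebraicClosure ℚ ≃ₐ[ℚ] AlgebraicClosure ℚ)
    (f : modularFunctionFieldBar N) : modularFunctionFieldBar N :=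
  arithmeticGalois (modularFunctionFieldFull N) σ • f

/-- **Kummer seam.** There is `d ≠ 0` such that for `σ` in an inertia group at `q`, `q ∤ m` and
`f ≠ 0` with all orders divisible by `m`:  `(σ²f · f)^d = c · r^m · (σ f)^(2d)`. -/
def ss_KeyBar (N : ℕ) [NeZero N] (q : ℕ) : Prop :=
  ∃ d : ℕ, d ≠ 0 ∧ ∀ P : ValuationSubring (AlgebraicClosure ℚ), P.LiesOverPrime q →
    ∀ σ ∈ P.inertiaSubgroupIn ℚ, ∀ m : ℕ, ¬ q ∣ m →
      ∀ f : modularFunctionFieldBar N, f ≠ 0 →
        (∀ v : Place (AlgebraicClosure ℚ) (modularFunctionFieldBar N), (m : ℤ) ∣ v.ord f) →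
        ∃ (c : AlgebraicClosure ℚ) (r : modularFunctionFieldBar N), r ≠ 0 ∧
          (ss_act N σ (ss_act N σ f) * f) ^ d =
            algebraMap (AlgebraicClosure ℚ) (modularFunctionFieldBar N) c * r ^ m *
              ss_act N σ f ^ (2 * d)

end Fermat.Agent.SS
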