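/-
Project SS (statement S34), leaf [T] TRANSFER (helper19; architecture: helper6, finding #1689 (3)).

From "the square of `σ - 1` kills the Tate module of `J₀(N)` for `σ` in an inertia group at `q ≠ p`"
to "`H.ρ` is unipotent on the inertia groups at `q`" for every Hecke-Galois datum `H` of level `N`:

* `sst_charpoly_rank_two` : in rank two, `charpoly f = X² - tr(f) X + det(f)`;
* `sst_det_sub_one_mem`   : `f ≡ 1 mod I` implies `det f ≡ 1 mod I`;
* `sst_trace_congr`       : the trace of `H.ρ` only depends on the Hecke-valued trace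
                            `ur_w D.ρ ε g = ρ₀ g + ε g • ρ₀ g⁻¹` on the Tate side;
* `sst_det_eq_eps`        : `det H.ρ g = ε g` (the `p`-adic cyclotomic character), and
  `sst_detIsCyclotomic`   : `H.ρ.DetIsCyclotomic p`;
* `sst_unip`              : the transfer;
* `sst_tate_unip`         : `ss_Geom N q` gives `(ρ₀ σ - 1)² = 0` on the Tate module of `J₀(N)`;
* `sst_S34`               : the statement of S34 from node E, S18 and the seam `ss_Geom`.
Prefix `sst_`.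
-/
import Mathlib
import Fermat.Agent.SS.Seams
import Fermat.Agent.JT3.Tate.Consumers

set_option autoImplicit false
set_option linter.style.haveILetI false
set_option linter.unusedSectionVars false

noncomputable section

namespace Fermat.Agent.SS

open IsLocalRing Polynomial Fermat.Agent.JT3 ModularCurve

local notation "GQ" => (AlgebraicClosure ℚ ≃ₐ[ℚ] AlgebraicClosure ℚ)
local notation "Qbar" => AlgebraicClosure ℚ

/-! ### Linear algebra in rank two -/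

section linalg

variable {T : Type*} [CommRing T] {V : Type*} [AddCommGroup V] [Module T V]
  [Module.Free T V] [Module.Finite T V]

/-- In rank two the characteristic polynomial is `X² - tr(f) X + det(f)`. -/
theorem sst_charpoly_rank_two [Nontrivial T] (h2 : Module.finrank T V = 2) (f : Module.End T V) :
    f.charpoly = X ^ 2 - C (LinearMap.trace T V f) * X + C (LinearMap.det f) := by
  classical
  let b := Module.finBasisOfFinrankEq T V h2
  rw [← LinearMap.charpoly_toMatrix f b, Matrix.charpoly_fin_two,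
    ← LinearMap.trace_eq_matrix_trace T b f, LinearMap.det_toMatrix b f]

/-- An endomorphism congruent to `1` modulo `I` has determinant congruent to `1` modulo `I`. -/
theorem sst_det_sub_one_mem (I : Ideal T) (f : Module.End T V) (h : gcl_Small I (f - 1)) :
    LinearMap.det f - 1 ∈ I := by
  classical
  let b := Module.Free.chooseBasis T V
  rw [← Ideal.Quotient.eq, map_one, ← LinearMap.det_toMatrix b f, RingHom.map_det]
  have h1 : (Ideal.Quotient.mk I).mapMatrix (LinearMap.toMatrix b b f) = 1 := by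
    ext i j
    rw [RingHom.mapMatrix_apply, Matrix.map_apply, LinearMap.toMatrix_apply, Matrix.one_apply]
    have h2 : f (b j) = (f - 1) (b j) + b j := by
      rw [LinearMap.sub_apply, Module.End.one_apply, sub_add_cancel]
    rw [h2, map_add, Finsupp.add_apply, map_add,
      Ideal.Quotient.eq_zero_iff_mem.mpr (ur_ar_coord_mem b I (h (b j)) i), zero_add,
      Module.Basis.repr_self, Finsupp.single_apply]
    by_cases hij : i = j
    · rw [if_pos hij, if_pos hij.symm, map_one]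
    · rw [if_neg hij, if_neg (Ne.symm hij), map_zero]
  rw [h1, Matrix.det_one]

end linalg

/-! ### The Hecke-valued trace of a unipotent element -/

section unip

variable {O : Type*} [CommRing O] {M : Type*} [AddCommGroup M] [Module O M]
  {G : Type*} [Group G]

/-- If `(ρ g - 1)² = 0` and `ε g = 1` then the Hecke-valued trace of `g` is that of `1`. -/
theorem sst_w_of_unip (ρ : G →* Module.End O M) (ε : G →* O) (g : G) (hε : ε g = 1)
    (hu : (ρ g - 1) * (ρ g - 1) = 0) : ur_w ρ ε g = ur_w ρ ε 1 := by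
  have hxy : ρ g * ρ g⁻¹ = 1 := by rw [← map_mul, mul_inv_cancel, map_one]
  have h1 : (ρ g - 1) * (ρ g - 1) * ρ g⁻¹ = ρ g + ρ g⁻¹ - (1 + 1) := by
    rw [mul_assoc, sub_mul (ρ g) 1 (ρ g⁻¹), hxy, one_mul, mul_sub, sub_mul, sub_mul, hxy, mul_one,
      one_mul]
    abel
  rw [hu, zero_mul] at h1
  unfold ur_w
  rw [hε, inv_one, map_one, map_one, one_smul, one_smul]
  exact (sub_eq_zero.mp h1.symm)

end unip

/-! ### The transfer -/

section main

variable {p : ℕ} [Fact p.Prime] {N : ℕ} [NeZero N] {S : Finset ℕ}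
  {𝒪 : Type} [CommRing 𝒪] [IsDomain 𝒪] [IsDiscreteValuationRing 𝒪]
  [IsAdicComplete (IsLocalRing.maximalIdeal 𝒪) 𝒪]
  {θ : CuspForm.heckeAlgebra N 2 (↑S : Set ℕ) →+* IsLocalRing.ResidueField 𝒪}
  {T : Type} [CommRing T] [IsLocalRing T] [IsNoetherianRing T]
  [IsAdicComplete (IsLocalRing.maximalIdeal T) T] [Algebra 𝒪 T] [IsLocalHom (algebraMap 𝒪 T)]
  [Module.Finite 𝒪 T] [Module.Free 𝒪 T]

/-- The congruence of traces at one level: the trace of `H.ρ g` modulo `𝔪_T ^ n` only depends on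
the Hecke-valued trace `ur_w D.ρ ε g` on the Tate side. -/
theorem sst_trace_congr (D : pk_Tate p N S)
    (H : CuspForm.HeckeGaloisRepDatum N (↑S : Set ℕ) 𝒪 θ T)
    (hpT : (p : T) ∈ maximalIdeal T) (hpS : p ∈ S)
    (hNS : ∀ q : ℕ, q.Prime → q ∣ N → q ∈ S)
    (lam : ↥(Algebra.adjoin ℤ_[p] (pk_heckeSet N S D.Tl)) →+* T)
    (hlam : ∀ (ℓ : ℕ) (hℓ : ℓ.Prime) (hℓN : ¬ ℓ ∣ N) (hℓS : ℓ ∉ (↑S : Set ℕ)),
      lam ⟨D.Tl ℓ, pk_mem_heckeSet D.Tl hℓ hℓN hℓS⟩ =
        H.π (CuspForm.heckeAlgebra.T hℓ hℓN hℓS))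
    (g g' : GQ)
    (hw : ur_w D.ρ (cya_eps p ℤ_[p] ur_p_mem) g' = ur_w D.ρ (cya_eps p ℤ_[p] ur_p_mem) g)
    (n : ℕ) :
    LinearMap.trace T H.ρ.V (H.ρ.ρ g') - LinearMap.trace T H.ρ.V (H.ρ.ρ g) ∈
      maximalIdeal T ^ n := by
  have hlam' : ∀ x ∈ maximalIdeal ℤ_[p],
      lam (algebraMap ℤ_[p] ↥(Algebra.adjoin ℤ_[p] (pk_heckeSet N S D.Tl)) x) ∈
        maximalIdeal T := by
    intro x hx
    rw [PadicInt.maximalIdeal_eq_span_p, Ideal.mem_span_singleton'] at hx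
    obtain ⟨y, rfl⟩ := hx
    rw [map_mul, map_mul, map_natCast, map_natCast]
    exact Ideal.mul_mem_left _ _ hpT
  obtain ⟨m, hm⟩ :=
    ur_ar_transport (Algebra.adjoin ℤ_[p] (pk_heckeSet N S D.Tl)) lam hlam' n
  obtain ⟨c, hc1, hc2⟩ := ur_approx D H hpS hNS lam hlam g n m
  obtain ⟨c', hc1', hc2'⟩ := ur_approx D H hpS hNS lam hlam g' n m
  have hcc : gcl_Small (maximalIdeal ℤ_[p] ^ m)
      (((c' - c : ↥(Algebra.adjoin ℤ_[p] (pk_heckeSet N S D.Tl))) :
        Module.End ℤ_[p] D.Tp)) := by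
    have h5 : (((c' - c : ↥(Algebra.adjoin ℤ_[p] (pk_heckeSet N S D.Tl))) :
        Module.End ℤ_[p] D.Tp)) =
        ((c' : Module.End ℤ_[p] D.Tp) - ur_w D.ρ (cya_eps p ℤ_[p] ur_p_mem) g') -
          ((c : Module.End ℤ_[p] D.Tp) - ur_w D.ρ (cya_eps p ℤ_[p] ur_p_mem) g) := by
      rw [hw, sub_sub_sub_cancel_right]
      rfl
    rw [h5]
    exact hc2'.sub hc2
  have h4 := hm _ hcc
  rw [map_sub] at h4
  have h6 : LinearMap.trace T H.ρ.V (H.ρ.ρ g') - LinearMap.trace T H.ρ.V (H.ρ.ρ g) =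
      (LinearMap.trace T H.ρ.V (H.ρ.ρ g') - lam c') + (lam c' - lam c) -
        (LinearMap.trace T H.ρ.V (H.ρ.ρ g) - lam c) := by ring
  rw [h6]
  exact Ideal.sub_mem _ (Ideal.add_mem _ hc1' h4) hc1

/-- The determinant of `H.ρ g` is `ε g` modulo `𝔪_T ^ n` (weak Chebotarev + `charpoly_frob`). -/
theorem sst_det_congr (H : CuspForm.HeckeGaloisRepDatum N (↑S : Set ℕ) 𝒪 θ T)
    (hpT : (p : T) ∈ maximalIdeal T) (hpS : p ∈ S)
    (hNS : ∀ q : ℕ, q.Prime → q ∣ N → q ∈ S) (g : GQ) (n : ℕ) :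
    LinearMap.det (H.ρ.ρ g) - cya_eps p T hpT g ∈ maximalIdeal T ^ n := by
  obtain ⟨L₁, hL₁, h1⟩ := H.ρ.isAdicContinuous n
  obtain ⟨L₃, hL₃, h3⟩ := cya_eps_continuous p T hpT n
  obtain ⟨L, hLfd, hLn, h1L, -, h3L⟩ := ur_exists_normal L₁ L₃ L₃ hL₁ hL₃ hL₃
  haveI := hLfd
  haveI := hLn
  obtain ⟨ℓ, A, φ, k, hℓ, hℓS, hA, hφ, hk⟩ := Fermat.Agent.WC.wc_main L S g
  have hℓN : ¬ ℓ ∣ N := fun h => hℓS (hNS ℓ hℓ h)
  have hℓp : ℓ ≠ p := fun h => hℓS (h ▸ hpS)
  have hℓS' : ℓ ∉ (↑S : Set ℕ) := fun h => hℓS (Finset.mem_coe.mp h)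
  -- the error term `δ`
  obtain ⟨δ, hgδ, hδL⟩ : ∃ δ : GQ, φ ^ k = g * δ ∧ (∀ x ∈ L, δ x = x) := by
    refine ⟨g⁻¹ * φ ^ k, (mul_inv_cancel_left g (φ ^ k)).symm, ?_⟩
    intro x hx
    rw [AlgEquiv.mul_apply, hk x hx]
    show (g⁻¹ * g) x = x
    rw [inv_mul_cancel]
    rfl
  -- the determinant at the Frobenius element
  have hdetφ : LinearMap.det (H.ρ.ρ φ) = (ℓ : T) := by
    have h5 := sst_charpoly_rank_two H.ρ.finrank_eq (H.ρ.ρ φ)
    rw [H.charpoly_frob ℓ hℓ hℓN hℓS' A hA φ hφ] at h5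
    have h6 := congrArg (fun q => q.coeff 0) h5
    simp only [coeff_add, coeff_sub, coeff_X_pow, coeff_C_mul, coeff_X_zero, coeff_C_zero] at h6
    norm_num at h6
    exact h6.symm
  have hεφ : cya_eps p T hpT φ = (ℓ : T) := cya_eps_frob p T hpT hℓ hℓp A hA φ hφ
  have hprod : LinearMap.det (H.ρ.ρ g) * LinearMap.det (H.ρ.ρ δ) =
      cya_eps p T hpT g * cya_eps p T hpT δ := by
    rw [← map_mul, ← map_mul, ← map_mul, ← hgδ, map_pow, map_pow, map_pow, hdetφ, hεφ]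
  have hdδ : LinearMap.det (H.ρ.ρ δ) - 1 ∈ maximalIdeal T ^ n := by
    refine sst_det_sub_one_mem _ _ fun v => ?_
    rw [LinearMap.sub_apply, Module.End.one_apply]
    exact h1 δ (fun x hx => hδL x (h1L hx)) v
  have heδ : cya_eps p T hpT δ - 1 ∈ maximalIdeal T ^ n := h3 δ (fun x hx => hδL x (h3L hx))
  have h7 : LinearMap.det (H.ρ.ρ g) - cya_eps p T hpT g =
      cya_eps p T hpT g * (cya_eps p T hpT δ - 1) -
        LinearMap.det (H.ρ.ρ g) * (LinearMap.det (H.ρ.ρ δ) - 1) := by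
    linear_combination hprod
  rw [h7]
  exact Ideal.sub_mem _ (Ideal.mul_mem_left _ _ heδ) (Ideal.mul_mem_left _ _ hdδ)

/-- **The determinant of a Hecke-Galois datum is the cyclotomic character.** -/
theorem sst_det_eq_eps (H : CuspForm.HeckeGaloisRepDatum N (↑S : Set ℕ) 𝒪 θ T)
    (hpT : (p : T) ∈ maximalIdeal T) (hpS : p ∈ S)
    (hNS : ∀ q : ℕ, q.Prime → q ∣ N → q ∈ S) (g : GQ) :
    LinearMap.det (H.ρ.ρ g) = cya_eps p T hpT g := by
  rw [← sub_eq_zero]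
  refine IsHausdorff.haus (I := maximalIdeal T) inferInstance _ fun n => ?_
  rw [SModEq.zero, smul_eq_mul, Ideal.mul_top]
  exact sst_det_congr H hpT hpS hNS g n

/-- The determinant of a Hecke-Galois datum is cyclotomic in the sense of the prelude. -/
theorem sst_detIsCyclotomic (H : CuspForm.HeckeGaloisRepDatum N (↑S : Set ℕ) 𝒪 θ T)
    (hpT : (p : T) ∈ maximalIdeal T) (hpS : p ∈ S)
    (hNS : ∀ q : ℕ, q.Prime → q ∣ N → q ∈ S) : H.ρ.DetIsCyclotomic p :=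
  cya_detIsCyclotomic p H.ρ hpT (sst_det_eq_eps H hpT hpS hNS)

/-- **[T] the transfer**: if the square of `σ - 1` kills the Tate package for every `σ` in an
inertia group at `q ≠ p`, then `H.ρ` is unipotent on the inertia groups at `q`. -/
theorem sst_unip (D : pk_Tate p N S)
    (H : CuspForm.HeckeGaloisRepDatum N (↑S : Set ℕ) 𝒪 θ T)
    (hpT : (p : T) ∈ maximalIdeal T) (hpS : p ∈ S)
    (hNS : ∀ q : ℕ, q.Prime → q ∣ N → q ∈ S)
    (lam : ↥(Algebra.adjoin ℤ_[p] (pk_heckeSet N S D.Tl)) →+* T)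
    (hlam : ∀ (ℓ : ℕ) (hℓ : ℓ.Prime) (hℓN : ¬ ℓ ∣ N) (hℓS : ℓ ∉ (↑S : Set ℕ)),
      lam ⟨D.Tl ℓ, pk_mem_heckeSet D.Tl hℓ hℓN hℓS⟩ =
        H.π (CuspForm.heckeAlgebra.T hℓ hℓN hℓS))
    (q : ℕ) (hq : q.Prime) (hqp : q ≠ p)
    (hU : ∀ P : ValuationSubring Qbar, P.LiesOverPrime q → ∀ σ ∈ P.inertiaSubgroupIn ℚ,
      (D.ρ σ - 1) * (D.ρ σ - 1) = 0) :
    H.ρ.IsUnipotentOnInertiaAt q := by
  intro P hP σ hσ
  -- the trace is `2`
  have hε : cya_eps p ℤ_[p] ur_p_mem σ = 1 := cya_eps_inertia p ℤ_[p] ur_p_mem hq hqp P hP hσ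
  have hw := sst_w_of_unip D.ρ (cya_eps p ℤ_[p] ur_p_mem) σ hε (hU P hP σ hσ)
  have htr : LinearMap.trace T H.ρ.V (H.ρ.ρ σ) = 2 := by
    have h1 : LinearMap.trace T H.ρ.V (H.ρ.ρ (1 : GQ)) = 2 := by
      rw [map_one, LinearMap.trace_one, H.ρ.finrank_eq]
      norm_num
    rw [← h1, ← sub_eq_zero]
    refine IsHausdorff.haus (I := maximalIdeal T) inferInstance _ fun n => ?_
    rw [SModEq.zero, smul_eq_mul, Ideal.mul_top]
    exact sst_trace_congr D H hpT hpS hNS lam hlam 1 σ hw n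
  -- the determinant is `1`
  have hdet : LinearMap.det (H.ρ.ρ σ) = 1 := by
    rw [sst_det_eq_eps H hpT hpS hNS σ]
    exact cya_eps_inertia p T hpT hq hqp P hP hσ
  rw [sst_charpoly_rank_two H.ρ.finrank_eq (H.ρ.ρ σ), htr, hdet]
  rw [map_one, show (C (2 : T) : T[X]) = 2 from map_ofNat C 2]
  ring

end main

/-! ### The Tate module of `J₀(N)` -/

section tate

/-- **From the geometric seam to the Tate module**: `ss_Geom N q` gives `(ρ₀ σ - 1)² = 0` on the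
`p`-adic Tate module of `J₀(N)` for every `σ` in an inertia group at `q ≠ p`. -/
theorem sst_tate_unip (N p : ℕ) [NeZero N] [Fact p.Prime] (q : ℕ) (hq : q.Prime) (hqp : q ≠ p)
    (hG : ss_Geom N q) (P : ValuationSubring Qbar) (hP : P.LiesOverPrime q) (σ : GQ)
    (hσ : σ ∈ P.inertiaSubgroupIn ℚ) :
    (tj_rho N p σ - 1) * (tj_rho N p σ - 1) = 0 := by
  obtain ⟨d, hd, hG⟩ := hG
  have hp : p.Prime := Fact.out
  refine LinearMap.ext fun x => ?_
  have h1 : (d : ℤ_[p]) • (((tj_rho N p σ - 1) * (tj_rho N p σ - 1)) x) = 0 := by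
    refine tm_ext fun n => ?_
    rw [tm_natCast_smul_apply, tm_zero_apply]
    have hqn : ¬ q ∣ p ^ n := fun h =>
      hqp ((Nat.prime_dvd_prime_iff_eq hq hp).mp (hq.dvd_of_dvd_pow h))
    have h2 := hG P hP σ hσ (p ^ n) hqn (x.1 n) (tm_tor x n)
    have h3 : (((tj_rho N p σ - 1) * (tj_rho N p σ - 1)) x).1 n =
        σ • (σ • x.1 n) - 2 • (σ • x.1 n) + x.1 n := by
      simp only [Module.End.mul_apply, LinearMap.sub_apply, Module.End.one_apply, tm_sub_apply,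
        tj_rho_apply, smul_sub, two_nsmul]
      abel
    rw [h3]
    exact h2
  have hd' : (d : ℤ_[p]) ≠ 0 := Nat.cast_ne_zero.mpr hd
  rw [LinearMap.zero_apply]
  exact (smul_eq_zero.mp h1).resolve_left hd'

variable {𝒪 : Type} [CommRing 𝒪] [IsDomain 𝒪] [IsDiscreteValuationRing 𝒪]
  [IsAdicComplete (IsLocalRing.maximalIdeal 𝒪) 𝒪]
  {p : ℕ} {N : ℕ} [NeZero N] {S : Finset ℕ}
  {θ : CuspForm.heckeAlgebra N 2 (↑S : Set ℕ) →+* IsLocalRing.ResidueField 𝒪}
  {T : Type} [CommRing T] [IsLocalRing T] [IsNoetherianRing T]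
  [IsAdicComplete (IsLocalRing.maximalIdeal T) T] [Algebra 𝒪 T] [IsLocalHom (algebraMap 𝒪 T)]
  [Module.Finite 𝒪 T] [Module.Free 𝒪 T]

/-- **S34 from node E, S18 and the geometric seam** (the conclusion of S34 verbatim; the
hypotheses `[Finite (ResidueField 𝒪)]`, `[CharZero 𝒪]` of the frozen statement are not needed). -/
theorem sst_S34 (hE : tjp_NodeE) (hS18 : tjp_S18)
    (hG : ∀ (N : ℕ) [NeZero N] (q : ℕ), q.Prime → q ∣ N → ¬ q ^ 2 ∣ N → ss_Geom N q)
    (hp : p.Prime) (hp𝒪 : (p : 𝒪) ∈ maximalIdeal 𝒪) (hpS : p ∈ S)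
    (hNS : ∀ q : ℕ, q.Prime → q ∣ N → q ∈ S)
    (H : CuspForm.HeckeGaloisRepDatum N (↑S : Set ℕ) 𝒪 θ T)
    (q : ℕ) (hq : q.Prime) (hqp : q ≠ p) (hqN : q ∣ N) (hq2 : ¬ q ^ 2 ∣ N) :
    H.ρ.IsUnipotentOnInertiaAt q := by
  haveI : Fact p.Prime := ⟨hp⟩
  have hpT : (p : T) ∈ maximalIdeal T := by
    have h1 := map_nonunit (algebraMap 𝒪 T) (p : 𝒪) hp𝒪
    rwa [map_natCast] at h1
  let _ : Algebra ℤ_[p] T := (cya_padicHom p T hpT).toAlgebra
  obtain ⟨lam, hlam⟩ := tjp_eigenGen N p S hpS (hE N) (hS18 N) T H.π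
  exact sst_unip (tjp_tate N p S hpS (hE N) (hS18 N)) H hpT hpS hNS lam hlam q hq hqp
    (fun P hP σ hσ => sst_tate_unip N p q hq hqp (hG N q hq hqN hq2) P hP σ hσ)

end tate

end Fermat.Agent.SS
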