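/-
Project SS (statement S34), cell [D] (helper20): THE CORE SEAM.

`ss_KeyBar N q` (over `Q̄`, `SS/Seams.lean`) is reduced by `SS/Descent.lean` to the following
statement over number fields `L ⊆ Q̄`, finite and normal over `ℚ`, with the discrete valuation
ring `O = A ∩ L` and the restriction `σ : L ≃ₐ[ℚ] L` of an element of the inertia group of `A`:

* `ss_Inert O σ`      : `σ` (and `σ⁻¹`) preserve `O` and act trivially on its residue field;
* `ss_RatPlace v`     : the place `v` of `E / L` is `L`-rational (every function regular at `v`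
                        has a value in `L`; equivalent to `v.deg = 1`, `ssd_ratPlace_iff`);
* `ss_CoreAt σ E m`   : THE CORE over `(L, σ)` in the cover field `E ⊆ L((q))`
                        (`E = lg_E L N` for `q` odd, `E = hs_E L h3 N` for `q = 2`): for `g ∈ Eˣ`
                        with all orders divisible by `m` and all zeros and poles `L`-rational,
                        `σ²g · g = c · r^m · (σ g)²` with `c ∈ L`, `r ∈ Eˣ`
                        (`σ` acting on the coefficients);
* `ss_CoreNF N q`     : the core over all sufficiently large number fields (Legendre cover);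
* `ss_CoreNFH N q`    : the same for the Hesse cover.
-/
import Mathlib
import Fermat.Agent.JT3.Inst.Defs
import Fermat.Agent.JT3.Inst.HesseDefs
import Fermat.Prelude.Def_AlgebraicCurve_DivisorClassGroup
import Fermat.Prelude.Def_FLTPrelim_Ramification

set_option autoImplicit false

noncomputable section

namespace Fermat.Agent.SS

open ModularCurve AlgebraicCurve Fermat.Agent.JT3

section Defs

variable {L : Type*} [Field L]

/-- `σ` and `σ⁻¹` preserve the valuation ring `O` and act trivially on its residue field. -/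
def ss_Inert (O : ValuationSubring L) (σ : L ≃+* L) : Prop :=
  ∀ x ∈ O, σ x - x ∈ O.nonunits ∧ σ.symm x - x ∈ O.nonunits

/-- The place `v` of `E / L` is `L`-rational: every function regular at `v` has a value in `L`. -/
def ss_RatPlace {E : Type*} [Field E] [Algebra L E] (v : Place L E) : Prop :=
  ∀ a ∈ v.toValuationSubring, ∃ c : L, a - algebraMap L E c ∈ v.toValuationSubring.nonunits

/-- **THE CORE** over `(L, σ)` in the field `E ⊆ L((q))`. -/
def ss_CoreAt (σ : L ≃+* L) (E : IntermediateField L (LaurentSeries L)) (m : ℕ) : Prop :=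
  ∀ g : E, g ≠ 0 →
    (∀ v : Place L E, (m : ℤ) ∣ v.ord g) →
    (∀ v : Place L E, v.ord g ≠ 0 → ss_RatPlace v) →
    ∃ (c : L) (r : LaurentSeries L), r ∈ E ∧ r ≠ 0 ∧
      coeffMap (σ : L →+* L) (coeffMap (σ : L →+* L) (g : LaurentSeries L)) *
          (g : LaurentSeries L) =
        algebraMap L (LaurentSeries L) c * r ^ m *
          coeffMap (σ : L →+* L) (g : LaurentSeries L) ^ 2

end Defs

/-- **The core over number fields, Legendre cover** (`q` odd). For every valuation ring `A` of
`Q̄` over `q` there is a finite set `T ⊆ Q̄` such that the core holds over every number field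
`L1 ⊆ Q̄`, normal over `ℚ` and containing `T`, for every `σ : L1 ≃ₐ[ℚ] L1` inert at `A ∩ L1` and
every `m` prime to `q`. -/
def ss_CoreNF (N : ℕ) [NeZero N] (q : ℕ) : Prop :=
  ∀ A : ValuationSubring (AlgebraicClosure ℚ), A.LiesOverPrime q →
    ∃ T : Finset (AlgebraicClosure ℚ),
      ∀ L1 : IntermediateField ℚ (AlgebraicClosure ℚ), FiniteDimensional ℚ L1 → Normal ℚ L1 →
        (↑T : Set (AlgebraicClosure ℚ)) ⊆ L1 →
        ∀ σ : L1 ≃ₐ[ℚ] L1, ss_Inert (A.comap (algebraMap L1 (AlgebraicClosure ℚ))) σ.toRingEquiv →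
          ∀ m : ℕ, ¬ q ∣ m → ss_CoreAt σ.toRingEquiv (lg_E L1 N) m

/-- **The core over number fields, Hesse cover** (`q = 2`, or any `q ≠ 3`). -/
def ss_CoreNFH (N : ℕ) [NeZero N] (q : ℕ) : Prop :=
  ∀ A : ValuationSubring (AlgebraicClosure ℚ), A.LiesOverPrime q →
    ∃ T : Finset (AlgebraicClosure ℚ),
      ∀ L1 : IntermediateField ℚ (AlgebraicClosure ℚ), FiniteDimensional ℚ L1 → Normal ℚ L1 →
        (↑T : Set (AlgebraicClosure ℚ)) ⊆ L1 →
        ∀ σ : L1 ≃ₐ[ℚ] L1, ss_Inert (A.comap (algebraMap L1 (AlgebraicClosure ℚ))) σ.toRingEquiv →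
          ∀ (h3 : (3 : L1) ≠ 0) (m : ℕ), ¬ q ∣ m → ss_CoreAt σ.toRingEquiv (hs_E L1 h3 N) m

end Fermat.Agent.SS
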