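/-
Project SS (statement S34), cell [D] DESCENT (helper20): the Kummer seam `ss_KeyBar N q` from the
core over number fields.

* `ssd_keyBar`      : `ss_CoreNF N q  → ss_KeyBar N q`   (Legendre cover `E = φ(F_N)(λ)`, `q` odd);
* `ssd_keyBar_hes`  : `ss_CoreNFH N q → ss_KeyBar N q`   (Hesse cover `E = φ(F_N)(μ)`, `q = 2`).

Proof (`SS/Descent/{Rational,CoverField,Step,Generic}.lean`): given `A`, `σ ∈ I_A`, `m`, `f`, choose
a number field `L1 ⊆ Q̄`, normal over `ℚ`, over which `f` is defined, all zeros and poles of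
`φ(f)` on the cover are rational (their stabilisers in `G_ℚ` are open, and the value at a fixed
place of a fixed function is fixed), and containing the finite set `T` of the core; `σ` restricts
to `L1`, is inert at `A ∩ L1`; the core gives `φ(σ²f · f / (σ f)²) = c · r^m` with `r` in the cover,
and the landed Kummer descent (`kd_leg_root_descent`, `kd_hsk_root_descent`) brings `r` down to
`F_N`.  So `d = 1`.
-/
import Mathlib
import Fermat.Agent.SS.Descent.Generic
import Fermat.Agent.SS.Descent.CoverField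
import Fermat.Agent.JT3.KDescent.LegendreKey
import Fermat.Agent.JT3.KDescent.HesseKey
import Fermat.Agent.JT3.Inst.FunFieldFacts
import Fermat.Agent.JT3.Inst.HesseFunFieldFacts

set_option autoImplicit false
set_option linter.unusedSectionVars false

noncomputable section

namespace Fermat.Agent.SS

open ModularCurve AlgebraicCurve Fermat.Agent.JT3 IntermediateField

local notation "Qb" => AlgebraicClosure ℚ

section Legendre

variable (N : ℕ) [NeZero N] (q : ℕ)

/-- the root descent of the Legendre cover, in the base change vocabulary. -/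
theorem ssd_leg_rootDescent (L1 : Type) [Field L1] [Algebra ℚ L1] {m : ℕ} (hm : m ≠ 0) :
    ssd_RootDescent N (lg_E ℚ N) 2 L1 m := by
  have _ : CharZero L1 := algebraRat.charZero L1
  have key : ∀ F E : IntermediateField L1 (LaurentSeries L1), lg_F L1 N = F → lg_E L1 N = E →
      ∀ f : F, (∀ P : Place L1 F, (m : ℤ) ∣ P.ord f) →
      ∀ (c : L1) (g : LaurentSeries L1), g ∈ E →
        qExpand L1 2 (f : LaurentSeries L1) = algebraMap L1 (LaurentSeries L1) c * g ^ m →
        ∃ (c' : L1) (g' : F), f = algebraMap L1 F c' * g' ^ m := by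
    rintro F E rfl rfl f hord c g hg hfg
    exact kd_leg_root_descent L1 N hm f hord c g hg hfg
  exact key _ _ (lg_F_eq_laurentBaseChange L1 N) (ssd_lg_E_eq L1 N)

/-- **[D], Legendre cover**: the core over number fields implies the Kummer seam. -/
theorem ssd_keyBar (h : ss_CoreNF N q) : ss_KeyBar N q := by
  refine ssd_keyBar_of_core N q (lg_E ℚ N) 2 ?_ ?_ ∅ ?_ ?_
  · intro L1 _ _ x hx
    rw [← ssd_lg_E_eq L1 N]
    rw [← lg_F_eq_laurentBaseChange L1 N] at hx
    exact lg_phi_mem_E L1 N hx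
  · have key : ∀ E : IntermediateField Qb (LaurentSeries Qb), lg_E Qb N = E →
        ∃ x0 : E, FiniteDimensional Qb⟮x0⟯ E := by
      rintro E rfl
      exact ⟨lg_lamE N, lgf_finite Qb N⟩
    exact key _ (ssd_lg_E_eq Qb N)
  · intro L1 _ m hm
    exact ssd_leg_rootDescent N L1 hm
  · intro A hA
    obtain ⟨T, hT⟩ := h A hA
    refine ⟨T, fun L1 hfd hn hTs σ1 hin m hqm => ?_⟩
    have := hT L1 hfd hn hTs σ1 hin m hqm
    rwa [ssd_lg_E_eq L1 N] at this

end Legendre

section Hesse

variable (N : ℕ) [NeZero N] (q : ℕ)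

theorem ssd_three_ne_zero_rat : (3 : ℚ) ≠ 0 := by norm_num

/-- the root descent of the Hesse cover, in the base change vocabulary (`ζ₃ ∈ L1`). -/
theorem ssd_hes_rootDescent (L1 : Type) [Field L1] [Algebra ℚ L1] {ζ : L1}
    (hζ : IsPrimitiveRoot ζ 3) {m : ℕ} (hm : m ≠ 0) :
    ssd_RootDescent N (hs_E ℚ ssd_three_ne_zero_rat N) 3 L1 m := by
  have _ : CharZero L1 := algebraRat.charZero L1
  have h3 : (3 : L1) ≠ 0 := by norm_num
  have key : ∀ F E : IntermediateField L1 (LaurentSeries L1), lg_F L1 N = F →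
      hs_E L1 h3 N = E →
      ∀ f : F, (∀ P : Place L1 F, (m : ℤ) ∣ P.ord f) →
      ∀ (c : L1) (g : LaurentSeries L1), g ∈ E →
        qExpand L1 3 (f : LaurentSeries L1) = algebraMap L1 (LaurentSeries L1) c * g ^ m →
        ∃ (c' : L1) (g' : F), f = algebraMap L1 F c' * g' ^ m := by
    rintro F E rfl rfl f hord c g hg hfg
    exact kd_hsk_root_descent L1 h3 N hζ hm f hord c g hg hfg
  exact key _ _ (lg_F_eq_laurentBaseChange L1 N) (ssd_hs_E_eq L1 N h3 ssd_three_ne_zero_rat)

/-- **[D], Hesse cover**: the core over number fields implies the Kummer seam. -/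
theorem ssd_keyBar_hes (h : ss_CoreNFH N q) : ss_KeyBar N q := by
  obtain ⟨ζ, hζ⟩ : ∃ ζ : Qb, IsPrimitiveRoot ζ 3 :=
    HasEnoughRootsOfUnity.exists_primitiveRoot Qb 3
  have h3b : (3 : Qb) ≠ 0 := by norm_num
  refine ssd_keyBar_of_core N q (hs_E ℚ ssd_three_ne_zero_rat N) 3 ?_ ?_ {ζ} ?_ ?_
  · intro L1 _ _ x hx
    have _ : CharZero L1 := algebraRat.charZero L1
    have h3 : (3 : L1) ≠ 0 := by norm_num
    rw [← ssd_hs_E_eq L1 N h3 ssd_three_ne_zero_rat]
    rw [← lg_F_eq_laurentBaseChange L1 N] at hx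
    exact hs_phi_mem_E L1 h3 N hx
  · have key : ∀ E : IntermediateField Qb (LaurentSeries Qb), hs_E Qb h3b N = E →
        ∃ x0 : E, FiniteDimensional Qb⟮x0⟯ E := by
      rintro E rfl
      exact ⟨hs_muE h3b N, hsf_finite Qb h3b N⟩
    exact key _ (ssd_hs_E_eq Qb N h3b ssd_three_ne_zero_rat)
  · intro L1 hL1 m hm
    have hζ1 : ζ ∈ L1 := hL1 (by simp)
    have hζ' : IsPrimitiveRoot (L1.val (⟨ζ, hζ1⟩ : L1)) 3 := hζ
    have hζ'' : IsPrimitiveRoot (⟨ζ, hζ1⟩ : L1) 3 :=
      IsPrimitiveRoot.of_map_of_injective hζ' Subtype.val_injective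
    exact ssd_hes_rootDescent N L1 hζ'' hm
  · intro A hA
    obtain ⟨T, hT⟩ := h A hA
    refine ⟨T, fun L1 hfd hn hTs σ1 hin m hqm => ?_⟩
    have h3 : (3 : L1) ≠ 0 := by norm_num
    have := hT L1 hfd hn hTs σ1 hin h3 m hqm
    rwa [ssd_hs_E_eq L1 N h3 ssd_three_ne_zero_rat] at this

end Hesse

end Fermat.Agent.SS
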