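/-
Project SS (statement S34), leaf [K] KUMMER (helper29): the Kummer seam `ss_KeyBar N q` implies the
geometric seam `ss_Geom N q`.

`z = [D]`, `m D = div f`; with `g := σ` acting on functions, places and divisors
(`SemilinearAut.ord_smul`): `div (g f) = g · div f`, so for `E := g² D - 2 g D + D` one has
`m E = div (g² f · f / (g f)²)`.  The Kummer seam gives `(g² f · f)^d = c · r^m · (g f)^(2 d)`, hence
`m (d E - div r) = 0`, hence `d E = div r` (divisors are torsion free) and `d • (σ² z - 2 σ z + z) = 0`.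
-/
import Mathlib
import Fermat.Agent.SS.Seams

set_option autoImplicit false

noncomputable section

namespace Fermat.Agent.SS

open ModularCurve AlgebraicCurve

section Generic

variable {K F : Type*} [Field K] [Field F] [Algebra K F]

/-- a nonzero constant has order zero at every place. -/
theorem ssk_ord_algebraMap (v : Place K F) {c : K} (hc : c ≠ 0) :
    v.ord (algebraMap K F c) = 0 := by
  have hu : IsUnit (algebraMap K v.toValuationSubring c) :=
    (IsUnit.mk0 c hc).map (algebraMap K v.toValuationSubring)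
  have := v.ord_coe_unit hu.unit
  rwa [IsUnit.unit_spec, Place.coe_algebraMap] at this

/-- `ord_w (g • f) = ord_{g⁻¹ • w} f`. -/
theorem ssk_ord_smul (g : SemilinearAut K F) (w : Place K F) (f : F) :
    w.ord (g • f) = (g⁻¹ • w).ord f := by
  have h := SemilinearAut.ord_smul g (g⁻¹ • w) f
  rwa [smul_inv_smul] at h

theorem ssk_ord_pow (v : Place K F) (f : F) (n : ℕ) : v.ord (f ^ n) = n * v.ord f := by
  have := v.ord_zpow f (n : ℤ)
  rwa [zpow_natCast] at this

/-- **the divisor computation.** If `m • D = div f` and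
`(g²f · f)^d = c · r^m · (g f)^(2d)` then `d • (g²D - 2 gD + D) = div r`. -/
theorem ssk_divisor_identity (g : SemilinearAut K F) {m : ℕ} (hm : m ≠ 0) (d : ℕ)
    (D : Divisor K F) {f : F} (hf : f ≠ 0) (hD : ∀ v : Place K F, (m : ℤ) * D v = v.ord f)
    {c : K} {r : F} (hr : r ≠ 0)
    (h : (g • (g • f) * f) ^ d = algebraMap K F c * r ^ m * (g • f) ^ (2 * d))
    (w : Place K F) :
    (d : ℤ) * ((g • (g • D)) w - 2 * (g • D) w + D w) = w.ord r := by
  have hgf : g • f ≠ 0 := by
    rw [Ne, smul_eq_zero_iff_eq]; exact hf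
  have hggf : g • (g • f) ≠ 0 := by
    rw [Ne, smul_eq_zero_iff_eq]; exact hgf
  have hc : c ≠ 0 := by
    rintro rfl
    rw [map_zero, zero_mul, zero_mul] at h
    exact pow_ne_zero d (mul_ne_zero hggf hf) h
  have hcF : algebraMap K F c ≠ 0 := by
    rwa [Ne, map_eq_zero]
  have h1 := congrArg w.ord h
  rw [ssk_ord_pow, w.ord_mul hggf hf, w.ord_mul (mul_ne_zero hcF (pow_ne_zero m hr))
    (pow_ne_zero _ hgf), w.ord_mul hcF (pow_ne_zero m hr), ssk_ord_algebraMap w hc,
    ssk_ord_pow, ssk_ord_pow, zero_add] at h1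
  -- orders of the conjugates
  have e1 : w.ord (g • f) = (m : ℤ) * (g • D) w := by
    rw [ssk_ord_smul, ← hD, SemilinearAut.divisor_smul_apply]
  have e2 : w.ord (g • (g • f)) = (m : ℤ) * (g • (g • D)) w := by
    rw [ssk_ord_smul, ssk_ord_smul, ← hD, SemilinearAut.divisor_smul_apply,
      SemilinearAut.divisor_smul_apply]
  rw [e1, e2, ← hD w] at h1
  have hm' : (m : ℤ) ≠ 0 := by exact_mod_cast hm
  apply mul_left_cancel₀ hm'
  push_cast at h1
  linear_combination h1

theorem ssk_eval (d : ℕ) (A B C : Divisor K F) (w : Place K F) :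
    (d • (A - 2 • B + C)) w = (d : ℤ) * (A w - 2 * B w + C w) := by
  rw [Finsupp.smul_apply, Finsupp.add_apply, Finsupp.sub_apply, Finsupp.smul_apply,
    nsmul_eq_mul, nsmul_eq_mul]
  push_cast
  ring

end Generic

section Main

variable (N : ℕ) [NeZero N]

/-- **[K]** the Kummer seam implies the geometric seam. -/
theorem ssk_geom (q : ℕ) (h : ss_KeyBar N q) : ss_Geom N q := by
  obtain ⟨d, hd, H⟩ := h
  refine ⟨d, hd, fun P hP σ hσ m hqm z hmz => ?_⟩
  have hm : m ≠ 0 := by
    rintro rfl
    exact hqm (dvd_zero q)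
  set g : SemilinearAut (AlgebraicClosure ℚ) (modularFunctionFieldBar N) :=
    arithmeticGalois (modularFunctionFieldFull N) σ with hg
  obtain ⟨D, rfl⟩ := Pic0.mk_surjective z
  -- `m • D` is principal
  have hmD : ((m • D : Divisor.degZero (K := AlgebraicClosure ℚ)
      (F := modularFunctionFieldBar N)) : Divisor (AlgebraicClosure ℚ)
      (modularFunctionFieldBar N)) ∈ Divisor.principal := by
    have h1 : Pic0.mk (m • D) = 0 := by
      rw [← hmz]; rfl
    have h2 := (QuotientAddGroup.eq_zero_iff _).1 h1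
    exact h2
  obtain ⟨f, hf, hfD⟩ := hmD
  have hD : ∀ v : Place (AlgebraicClosure ℚ) (modularFunctionFieldBar N),
      (m : ℤ) * (D : Divisor _ _) v = v.ord f := by
    intro v
    rw [← hfD v]
    simp
  obtain ⟨c, r, hr, hrel⟩ := H P hP σ hσ m hqm f hf (fun v => ⟨_, (hD v).symm⟩)
  have key := ssk_divisor_identity g hm d (D : Divisor _ _) hf hD hr hrel
  -- rewrite the class
  have hz : σ • (σ • Pic0.mk D) - 2 • (σ • Pic0.mk D) + Pic0.mk D
      = Pic0.mk (SemilinearAut.degZeroSMulHom g (SemilinearAut.degZeroSMulHom g D)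
          - 2 • SemilinearAut.degZeroSMulHom g D + D) := by
    rw [galois_smul_pic0_def, galois_smul_pic0_def, SemilinearAut.pic0_smul_mk,
      SemilinearAut.pic0_smul_mk]
    rfl
  rw [hz]
  have hz2 : d • Pic0.mk (SemilinearAut.degZeroSMulHom g (SemilinearAut.degZeroSMulHom g D)
          - 2 • SemilinearAut.degZeroSMulHom g D + D)
      = Pic0.mk (d • (SemilinearAut.degZeroSMulHom g (SemilinearAut.degZeroSMulHom g D)
          - 2 • SemilinearAut.degZeroSMulHom g D + D)) := rfl
  rw [hz2]
  refine (QuotientAddGroup.eq_zero_iff _).2 ?_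
  rw [AddSubgroup.mem_addSubgroupOf]
  refine ⟨r, hr, fun w => ?_⟩
  rw [← key w, ← ssk_eval]
  rfl

end Main

end Fermat.Agent.SS
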