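/-
Project SS (statement S34): THE FINAL GLUE (architect: helper6).

  S34  ⟸ `sst_S34` ([T], helper19)  ⟸ `ss_Geom N q`  ⟸ `ssk_geom` ([K], helper29)  ⟸ `ss_KeyBar N q`
       ⟸ `ssd_keyBar` / `ssd_keyBar_hes` ([D], helper20)  ⟸ `ss_CoreNF N q` (`q` odd, Legendre cover)
          resp. `ss_CoreNFH N 2` (`q = 2`, Hesse cover).

* `ss_geom_of_core` : the geometric seam at every `q ‖ N` from the two cores;
* `ss_S34_of_core`  : the conclusion of S34 verbatim from the two cores (node E and S18 are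
                      theorems: `tji_nodeE`, `tji_S18`).
-/
import Mathlib
import Fermat.Agent.SS.Transfer
import Fermat.Agent.SS.Kummer
import Fermat.Agent.SS.Descent
import Fermat.Agent.JT3.Tate.Inputs

set_option autoImplicit false

noncomputable section

namespace Fermat.Agent.SS

open Fermat.Agent.JT3 ModularCurve

/-- the geometric seam at every `q ‖ N` from the two cores. -/
theorem ss_geom_of_core
    (hOdd : ∀ (N : ℕ) [NeZero N] (q : ℕ), q.Prime → q ≠ 2 → q ∣ N → ¬ q ^ 2 ∣ N → ss_CoreNF N q)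
    (hTwo : ∀ (N : ℕ) [NeZero N], 2 ∣ N → ¬ 2 ^ 2 ∣ N → ss_CoreNFH N 2)
    (N : ℕ) [NeZero N] (q : ℕ) (hq : q.Prime) (hqN : q ∣ N) (hq2 : ¬ q ^ 2 ∣ N) :
    ss_Geom N q := by
  by_cases h2 : q = 2
  · subst h2
    exact ssk_geom N 2 (ssd_keyBar_hes N 2 (hTwo N hqN hq2))
  · exact ssk_geom N q (ssd_keyBar N q (hOdd N q hq h2 hqN hq2))

section S34

variable {𝒪 : Type} [CommRing 𝒪] [IsDomain 𝒪] [IsDiscreteValuationRing 𝒪]
  [IsAdicComplete (IsLocalRing.maximalIdeal 𝒪) 𝒪]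
  {p : ℕ} {N : ℕ} [NeZero N] {S : Finset ℕ}
  {θ : CuspForm.heckeAlgebra N 2 (↑S : Set ℕ) →+* IsLocalRing.ResidueField 𝒪}
  {T : Type} [CommRing T] [IsLocalRing T] [IsNoetherianRing T]
  [IsAdicComplete (IsLocalRing.maximalIdeal T) T] [Algebra 𝒪 T] [IsLocalHom (algebraMap 𝒪 T)]
  [Module.Finite 𝒪 T] [Module.Free 𝒪 T]

/-- **S34 from the two cores.** -/
theorem ss_S34_of_core
    (hOdd : ∀ (N : ℕ) [NeZero N] (q : ℕ), q.Prime → q ≠ 2 → q ∣ N → ¬ q ^ 2 ∣ N → ss_CoreNF N q)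
    (hTwo : ∀ (N : ℕ) [NeZero N], 2 ∣ N → ¬ 2 ^ 2 ∣ N → ss_CoreNFH N 2)
    (hp : p.Prime) (hp𝒪 : (p : 𝒪) ∈ IsLocalRing.maximalIdeal 𝒪) (hpS : p ∈ S)
    (hNS : ∀ q : ℕ, q.Prime → q ∣ N → q ∈ S)
    (H : CuspForm.HeckeGaloisRepDatum N (↑S : Set ℕ) 𝒪 θ T)
    (q : ℕ) (hq : q.Prime) (hqp : q ≠ p) (hqN : q ∣ N) (hq2 : ¬ q ^ 2 ∣ N) :
    H.ρ.IsUnipotentOnInertiaAt q :=
  sst_S34 tji_nodeE tji_S18
    (fun N _ q hq hqN hq2 => ss_geom_of_core hOdd hTwo N q hq hqN hq2)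
    hp hp𝒪 hpS hNS H q hq hqp hqN hq2

end S34

end Fermat.Agent.SS
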