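/-
Project SS (statement S34): THE ABSTRACT MODEL SEAMS (architect: helper6).

Chain below `ss_KeyBar` (the concrete core seam `ss_CoreAt` / `ss_CoreNF` / `ss_CoreNFH` between
[D] and the core is helper20's `SS/CoreSeam.lean`):

  `ss_KeyBar N q`  ⟸ [D]  `ss_CoreNF N q`  (q odd; Legendre cover)  resp.  `ss_CoreNFH N q` (q = 2)
  `ss_CoreAt σ E m` ⟸ [M]  an `ss_Model` for `(A0, F0, x) = (A ∩ L, E, λ resp. μ)` + the abstract core
  abstract core    ⟸      `sfc_main_factor` ([SFC]) + `ss_LocAt` on both charts ([L]) + assembly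
                           (`ss_core_of_loc`, `SS/CoreAssembly.lean`).

* `ss_SmoothAt`, `ss_NodeAt` : the two kinds of closed points of the special fibre of a chart;
* `ss_Model π x σ σ0 P1 P2`  : the abstract two-component semistable model with the action of `σ`;
* `ss_LocAt π x m h B`   : the local factorisation `h = (1 + π y) r^m` at every closed point of the
                           special fibre of the chart `B` (= hypothesis `hloc` of `sfc_main_factor`).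
-/
import Mathlib
import Fermat.Agent.SS.SFC.Bridge
import Fermat.Agent.JT3.Model.TameQuotient

set_option autoImplicit false

noncomputable section

namespace Fermat.Agent.SS

open Fermat.Agent.JT3

universe v


section Abstract

variable {A0 : Type*} [CommRing A0] {F0 : Type v} [Field F0] [Algebra A0 F0]

/-- **Smooth point** of the special fibre of the chart `B`: locally at `𝔫` the maximal ideal is
`(π, t)` and `π` is a prime element (this is `jt_RegAt` at one point). -/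
def ss_SmoothAt (π : A0) (B : Subalgebra A0 F0) (𝔫 : Ideal B) : Prop :=
  (∃ t : B, tq_GenBy (algebraMap A0 B π) t 𝔫) ∧ tq_Dom (algebraMap A0 B π) 𝔫

/-- **Ordinary double point** of the special fibre of the chart `B ≤ B12`, in local-ring form
(`R_𝔫 := {z | ∃ s ∈ B, s ∉ 𝔫, s z ∈ B}`): there are `u, v ∈ 𝔫 R_𝔫` with `u v = a ∈ A0`, `σ0 a = a`,
`σ u = u` (hence `σ v = v`), `𝔫 R_𝔫 = (π, u, v)`; `u` is a unit at the component `P1` and `v` is a
unit at the component `P2` (so `v ∈ P1 R_𝔫`, `u ∈ P2 R_𝔫`). -/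
def ss_NodeAt (π : A0) (σ : F0 ≃+* F0) (σ0 : A0 ≃+* A0) {B B12 : Subalgebra A0 F0} (_hle : B ≤ B12)
    (P1 P2 : Ideal B12) (𝔫 : Ideal B) : Prop :=
  ∃ (u v : F0) (a : A0), u * v = algebraMap A0 F0 a ∧ σ0 a = a ∧ σ u = u ∧
    (∃ s t : B, s ∉ 𝔫 ∧ t ∈ 𝔫 ∧ (s : F0) * u = t) ∧
    (∃ s t : B, s ∉ 𝔫 ∧ t ∈ 𝔫 ∧ (s : F0) * v = t) ∧
    (∀ z ∈ 𝔫, ∃ s c1 c2 c3 : B, s ∉ 𝔫 ∧
      (s : F0) * (z : F0) = algebraMap A0 F0 π * c1 + u * c2 + v * c3) ∧
    (∃ s t : B12, s ∉ P1 ∧ t ∉ P1 ∧ (s : F0) * u = t) ∧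
    (∃ s t : B12, s ∉ P2 ∧ t ∉ P2 ∧ (s : F0) * v = t)

/-- **The abstract two-component semistable model.** `A0` the base (a discrete valuation ring with
uniformiser `π` in the application), `F0` the function field, `x` the coordinate; charts
`B₁, B₂, B₁₂ = fc_chart A0 {x}, {x⁻¹}, {x, x⁻¹}`; `σ` a ring automorphism of `F0` inducing `σ0` on
`A0`, trivial on the residue field of `A0`, fixing `x`, and trivial modulo `π` on both charts;
`P1, P2` the two (distinct) components of the special fibre (`π B₁₂ = P1 ∩ P2`); every closed point of the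
special fibre of `B₁`, `B₂` is a smooth point or an ordinary double point. -/
structure ss_Model (π : A0) (x : F0) (σ : F0 ≃+* F0) (σ0 : A0 ≃+* A0)
    (P1 P2 : Ideal (fc_chart A0 ({x, x⁻¹} : Set F0))) : Prop where
  isAlg : Algebra.IsAlgebraic (Algebra.adjoin A0 ({x} : Set F0)) F0
  hfin1 : Module.Finite (Algebra.adjoin A0 ({x} : Set F0))
    (integralClosure (Algebra.adjoin A0 ({x} : Set F0)) F0)
  hnu : (algebraMap A0 F0 π)⁻¹ ∉ fc_chart A0 ({x, x⁻¹} : Set F0)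
  hxS1 : x ∈ sfc_S (fc_chart A0 ({x} : Set F0)).toSubring (algebraMap A0 F0 π)
  hxS2 : x⁻¹ ∈ sfc_S (fc_chart A0 ({x⁻¹} : Set F0)).toSubring (algebraMap A0 F0 π)
  hH0 : ∀ z : F0, z ∈ fc_chart A0 ({x} : Set F0) → z ∈ fc_chart A0 ({x⁻¹} : Set F0) →
    z ∈ (algebraMap A0 F0).range
  prime1 : P1.IsPrime
  prime2 : P2.IsPrime
  hrad : Ideal.span {algebraMap A0 (fc_chart A0 ({x, x⁻¹} : Set F0)) π} = P1 ⊓ P2
  h12 : ¬ P1 ≤ P2
  h21 : ¬ P2 ≤ P1
  σ_base : ∀ a : A0, σ (algebraMap A0 F0 a) = algebraMap A0 F0 (σ0 a)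
  σ0_triv : ∀ a : A0, π ∣ σ0 a - a
  σ_x : σ x = x
  σ_triv1 : ∀ b ∈ fc_chart A0 ({x} : Set F0), ∃ c ∈ fc_chart A0 ({x} : Set F0),
    σ b - b = algebraMap A0 F0 π * c
  σ_triv2 : ∀ b ∈ fc_chart A0 ({x⁻¹} : Set F0), ∃ c ∈ fc_chart A0 ({x⁻¹} : Set F0),
    σ b - b = algebraMap A0 F0 π * c
  pts1 : ∀ 𝔫 : Ideal (fc_chart A0 ({x} : Set F0)), 𝔫.IsMaximal →
    algebraMap A0 (fc_chart A0 ({x} : Set F0)) π ∈ 𝔫 →
    ss_SmoothAt π (fc_chart A0 ({x} : Set F0)) 𝔫 ∨ ss_NodeAt π σ σ0 (fc_chart1_le x) P1 P2 𝔫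
  pts2 : ∀ 𝔫 : Ideal (fc_chart A0 ({x⁻¹} : Set F0)), 𝔫.IsMaximal →
    algebraMap A0 (fc_chart A0 ({x⁻¹} : Set F0)) π ∈ 𝔫 →
    ss_SmoothAt π (fc_chart A0 ({x⁻¹} : Set F0)) 𝔫 ∨ ss_NodeAt π σ σ0 (fc_chart2_le x) P1 P2 𝔫

/-- **Local factorisation** (the hypothesis `hloc` of `sfc_main_factor` for the chart `B`): at
every maximal ideal `𝔫 ∋ π` of `B`, `h = (1 + π y) r^m` with `y ∈ B_𝔫` and `r ≡ 1` modulo `π` in the
semilocal Gauss ring of the overlap chart. -/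
def ss_LocAt (π : A0) (x : F0) (m : ℕ) (h : F0) (B : Subalgebra A0 F0) : Prop :=
  ∀ 𝔫 : Ideal B, 𝔫.IsMaximal → algebraMap A0 B π ∈ 𝔫 →
    ∃ (r y : F0) (s : B), s ∉ 𝔫 ∧ (s : F0) * y ∈ B ∧
      h = (1 + algebraMap A0 F0 π * y) * r ^ m ∧
      r - 1 ∈ sfc_piO (fc_chart A0 ({x, x⁻¹} : Set F0)).toSubring (algebraMap A0 F0 π)

end Abstract


end Fermat.Agent.SS
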