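/-
Project SS (S34), core assembly, part 1 (helper6): the order at a prime `P` of a noetherian domain
which is locally generated by one element `ϖ` (a component of a reduced special fibre).

* `ssa_locAt_isDVR`  : the localisation at `P` is a discrete valuation ring with uniformiser `ϖ`;
* `ssa_ord_at`       : every nonzero `r : R` is `ϖ ^ k * a / s` with `a, s ∉ P`;
* `ssa_ord_at_frac`  : every nonzero `G : Frac R` is `ϖ ^ k * a / b` with `a, b ∉ P`, `k : ℤ`.
-/
import Mathlib
import Fermat.Agent.JT3.FCore.LocalUFD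

set_option autoImplicit false
set_option linter.unusedSectionVars false

namespace Fermat.Agent.SS

open Fermat.Agent.JT3 IsLocalRing

section OrdAt

variable {R : Type*} [CommRing R] [IsDomain R]
  (F : Type*) [Field F] [Algebra R F] [IsFractionRing R F]

/-- Units of the localisation at a prime `P` are quotients of elements outside `P`. -/
theorem ssa_locAt_unit (P : Ideal R) [hP : P.IsPrime] (w : (fc_locAt F P)ˣ) :
    ∃ a b : R, a ∉ P ∧ b ∉ P ∧
      algebraMap (fc_locAt F P) F w * algebraMap R F b = algebraMap R F a := by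
  have hinj : Function.Injective (algebraMap R F) := IsFractionRing.injective R F
  obtain ⟨a, s, hs, h1⟩ := (fc_mem_locAt F P _).1 (w : fc_locAt F _).2
  obtain ⟨a', s', hs', h2⟩ := (fc_mem_locAt F P _).1
    ((w⁻¹ : (fc_locAt F P)ˣ) : fc_locAt F _).2
  refine ⟨a, s, ?_, hs, h1⟩
  have h3 : ((w : fc_locAt F P) : F) * (((w⁻¹ : (fc_locAt F P)ˣ) : fc_locAt F P) : F) = 1 := by
    rw [← Subalgebra.coe_mul, ← Units.val_mul, mul_inv_cancel, Units.val_one, Subalgebra.coe_one]
  have h4 : a * a' = s * s' := by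
    apply hinj
    rw [map_mul, map_mul, ← h1, ← h2]
    linear_combination (algebraMap R F s * algebraMap R F s') * h3
  intro ha
  have : s * s' ∈ P := h4 ▸ P.mul_mem_right a' ha
  rcases hP.mem_or_mem this with h | h
  · exact hs h
  · exact hs' h

variable [IsNoetherianRing R]

/-- The localisation of a noetherian domain at a prime `P` which is locally generated by `ϖ ≠ 0`
is a discrete valuation ring. -/
theorem ssa_locAt_isDVR (P : Ideal R) [hP : P.IsPrime] {ϖ : R} (hϖ : ϖ ∈ P) (hϖ0 : ϖ ≠ 0)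
    (hloc : ∀ z ∈ P, ∃ t : R, t ∉ P ∧ ϖ ∣ t * z) :
    IsDiscreteValuationRing (fc_locAt F P) ∧
      Irreducible (algebraMap R (fc_locAt F P) ϖ) := by
  set S := fc_locAt F P with hS
  have hlocal : IsLocalRing S := IsLocalization.AtPrime.isLocalRing S P
  have hnoeth : IsNoetherianRing S := IsLocalization.isNoetherianRing P.primeCompl S inferInstance
  have hmax : maximalIdeal S = Ideal.span {algebraMap R S ϖ} := by
    rw [← IsLocalization.AtPrime.map_eq_maximalIdeal P S]
    apply le_antisymm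
    · rw [Ideal.map_le_iff_le_comap]
      intro z hz
      obtain ⟨t, ht, c, hc⟩ := hloc z hz
      rw [Ideal.mem_comap, Ideal.mem_span_singleton]
      have htu : IsUnit (algebraMap R S t) :=
        IsLocalization.map_units S (⟨t, ht⟩ : P.primeCompl)
      obtain ⟨tu, htu'⟩ := htu
      refine ⟨algebraMap R S c * ((tu⁻¹ : Sˣ) : S), ?_⟩
      have h1 : algebraMap R S t * algebraMap R S z = algebraMap R S ϖ * algebraMap R S c := by
        rw [← map_mul, hc, map_mul]
      have h2 : ((tu⁻¹ : Sˣ) : S) * algebraMap R S t = 1 := by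
        rw [← htu', Units.inv_mul]
      calc algebraMap R S z = (((tu⁻¹ : Sˣ) : S) * algebraMap R S t) * algebraMap R S z := by
            rw [h2, one_mul]
        _ = ((tu⁻¹ : Sˣ) : S) * (algebraMap R S t * algebraMap R S z) := by ring
        _ = algebraMap R S ϖ * (algebraMap R S c * ((tu⁻¹ : Sˣ) : S)) := by rw [h1]; ring
    · rw [Ideal.span_le, Set.singleton_subset_iff]
      exact Ideal.mem_map_of_mem _ hϖ
  have hprin : (maximalIdeal S).IsPrincipal := ⟨⟨_, hmax⟩⟩
  have hPIR : IsPrincipalIdealRing S :=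
    ((tfae_of_isNoetherianRing_of_isLocalRing_of_isDomain S).out 4 0).1 hprin
  have hinj : Function.Injective (algebraMap R S) :=
    IsLocalization.injective S P.primeCompl_le_nonZeroDivisors
  have hDVR : IsDiscreteValuationRing S := by
    refine { not_a_field' := ?_ }
    rw [hmax, Ne, Ideal.span_singleton_eq_bot]
    exact (map_ne_zero_iff _ hinj).2 hϖ0
  exact ⟨hDVR, (IsDiscreteValuationRing.irreducible_iff_uniformizer _).2 hmax⟩

/-- every nonzero element of `R` is `ϖ ^ k * a / s` with `a, s ∉ P`. -/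
theorem ssa_ord_at (P : Ideal R) [hP : P.IsPrime] {ϖ : R} (hϖ : ϖ ∈ P) (hϖ0 : ϖ ≠ 0)
    (hloc : ∀ z ∈ P, ∃ t : R, t ∉ P ∧ ϖ ∣ t * z) {r : R} (hr : r ≠ 0) :
    ∃ (k : ℕ) (a s : R), a ∉ P ∧ s ∉ P ∧ r * s = ϖ ^ k * a := by
  obtain ⟨hDVR, hirr⟩ := ssa_locAt_isDVR (FractionRing R) P hϖ hϖ0 hloc
  set S := fc_locAt (FractionRing R) P with hS
  have hinjS : Function.Injective (algebraMap R S) :=
    IsLocalization.injective S P.primeCompl_le_nonZeroDivisors
  have hinj : Function.Injective (algebraMap R (FractionRing R)) :=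
    IsFractionRing.injective R (FractionRing R)
  have hr0 : algebraMap R S r ≠ 0 := (map_ne_zero_iff _ hinjS).2 hr
  obtain ⟨n, u, hu⟩ := IsDiscreteValuationRing.eq_unit_mul_pow_irreducible hr0 hirr
  obtain ⟨a, s, ha, hs, has⟩ := ssa_locAt_unit (FractionRing R) P u
  refine ⟨n, a, s, ha, hs, ?_⟩
  apply hinj
  have h1 : algebraMap R (FractionRing R) r =
      algebraMap S (FractionRing R) (u : S) * algebraMap R (FractionRing R) ϖ ^ n := by
    have := congrArg (algebraMap S (FractionRing R)) hu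
    rw [map_mul, map_pow] at this
    exact this
  rw [map_mul, map_mul, map_pow, h1, ← has]
  ring

/-- every nonzero element of the fraction field is `ϖ ^ k * a / b` with `a, b ∉ P`, `k : ℤ`. -/
theorem ssa_ord_at_frac (P : Ideal R) [hP : P.IsPrime] {ϖ : R} (hϖ : ϖ ∈ P) (hϖ0 : ϖ ≠ 0)
    (hloc : ∀ z ∈ P, ∃ t : R, t ∉ P ∧ ϖ ∣ t * z) {G : F} (hG : G ≠ 0) :
    ∃ (k : ℤ) (a b : R), a ∉ P ∧ b ∉ P ∧
      G * algebraMap R F b = algebraMap R F ϖ ^ k * algebraMap R F a := by
  have hinj : Function.Injective (algebraMap R F) := IsFractionRing.injective R F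
  obtain ⟨r1, r2, hr2, hG'⟩ := IsFractionRing.div_surjective (A := R) G
  have hr20 : r2 ≠ 0 := nonZeroDivisors.ne_zero hr2
  have hr2F : algebraMap R F r2 ≠ 0 := (map_ne_zero_iff _ hinj).2 hr20
  have hr10 : r1 ≠ 0 := by
    rintro rfl
    rw [map_zero, zero_div] at hG'
    exact hG hG'.symm
  obtain ⟨k1, a1, s1, ha1, hs1, h1⟩ := ssa_ord_at P hϖ hϖ0 hloc hr10
  obtain ⟨k2, a2, s2, ha2, hs2, h2⟩ := ssa_ord_at P hϖ hϖ0 hloc hr20
  have hϖF : algebraMap R F ϖ ≠ 0 := (map_ne_zero_iff _ hinj).2 hϖ0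
  refine ⟨(k1 : ℤ) - (k2 : ℤ), a1 * s2, a2 * s1,
    fun h => (hP.mem_or_mem h).elim ha1 hs2, fun h => (hP.mem_or_mem h).elim ha2 hs1, ?_⟩
  have h1F := congrArg (algebraMap R F) h1
  have h2F := congrArg (algebraMap R F) h2
  simp only [map_mul, map_pow] at h1F h2F
  have hs2F : algebraMap R F s2 ≠ 0 := (map_ne_zero_iff _ hinj).2 (fun h => hs2 (h ▸ P.zero_mem))
  rw [← hG', zpow_sub₀ hϖF, zpow_natCast, zpow_natCast, map_mul, map_mul]
  have hk2 : algebraMap R F ϖ ^ k2 ≠ 0 := pow_ne_zero _ hϖF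
  rw [div_mul_eq_mul_div, div_mul_eq_mul_div, div_eq_div_iff hr2F hk2]
  linear_combination (algebraMap R F a2 * algebraMap R F ϖ ^ k2) * h1F
    - (algebraMap R F ϖ ^ k1 * algebraMap R F a1) * h2F

end OrdAt

end Fermat.Agent.SS
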