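/-
Project SS (S34), core assembly, part 2 (helper6): the action of `σ` on an `ss_Model`, and the
abstract core from the local factorisations.

For `M : ss_Model π x σ σ0 P1 P2` (see `SS/CoreModel.lean`), with `ϖ := algebraMap A0 F0 π`,
`B₁₂ := fc_chart A0 {x, x⁻¹}`, `S := sfc_S B₁₂ ϖ`, `O := sfc_O B₁₂ ϖ` (the semilocal Gauss ring):

* `ssa_sigma12`     : `σ b - b ∈ ϖ B₁₂` for `b ∈ B₁₂`;
* `ssa_sigma_pi`    : `σ0 π = π e` with `e` a unit of `A0`;
* `ssa_sigma_S`     : `σ S ⊆ S`;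
* `ssa_sigma_O`     : `σ z - z ∈ ϖ O` for `z ∈ O` (and `ssa_sigma_mem_O`: `σ O ⊆ O`);
* `ssa_quot_mem`    : `σ G / G ∈ O` for every `G ∈ F0ˣ` (the vertical orders of `σ G / G` vanish);
* `ssa_quot_sub_one`: `σ g / g - 1 ∈ ϖ O` for `g := σ G / G`;
* `ss_core_of_loc`  : **the abstract core**: from `ss_LocAt` on both charts for
                      `h := σ²f · f / (σ f)²`, the identity `σ²f · f = c · gᵐ · (σ f)²`.
-/
import Mathlib
import Fermat.Agent.SS.CoreModel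
import Fermat.Agent.SS.CoreOrd

set_option autoImplicit false
set_option linter.unusedSectionVars false

namespace Fermat.Agent.SS

open Fermat.Agent.JT3

universe v

section Sigma

variable {A0 : Type*} [CommRing A0] [IsDomain A0] [IsNoetherianRing A0]
  {F0 : Type v} [Field F0] [Algebra A0 F0]
  {π : A0} {x : F0} {σ : F0 ≃+* F0} {σ0 : A0 ≃+* A0}
  {P1 P2 : Ideal (fc_chart A0 ({x, x⁻¹} : Set F0))}

theorem ssa_x_ne_zero (M : ss_Model π x σ σ0 P1 P2) : x ≠ 0 := M.hxS1.2.1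

theorem ssa_pi_ne_zero (M : ss_Model π x σ σ0 P1 P2) : algebraMap A0 F0 π ≠ 0 := by
  intro h
  apply M.hnu
  rw [h, inv_zero]
  exact zero_mem _

theorem ssa_pi_ne_zero' (M : ss_Model π x σ σ0 P1 P2) : π ≠ 0 := by
  rintro rfl
  exact ssa_pi_ne_zero M (map_zero _)

theorem ssa_x_mem12 : x ∈ fc_chart A0 ({x, x⁻¹} : Set F0) :=
  fc_chart1_le x (fc_x_mem_chart x)

theorem ssa_xinv_mem12 : x⁻¹ ∈ fc_chart A0 ({x, x⁻¹} : Set F0) :=
  fc_chart2_le x (fc_x_mem_chart x⁻¹)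

/-- `σ` is trivial modulo `ϖ` on the overlap chart. -/
theorem ssa_sigma12 (M : ss_Model π x σ σ0 P1 P2) {b : F0}
    (hb : b ∈ fc_chart A0 ({x, x⁻¹} : Set F0)) :
    ∃ c ∈ fc_chart A0 ({x, x⁻¹} : Set F0), σ b - b = algebraMap A0 F0 π * c := by
  have hx := ssa_x_ne_zero M
  obtain ⟨k, hk⟩ := fc_clear1 (A0 := A0) hx hb
  obtain ⟨c1, hc1, h⟩ := M.σ_triv1 _ hk
  refine ⟨x⁻¹ ^ k * c1, mul_mem (pow_mem ssa_xinv_mem12 k) (fc_chart1_le x hc1), ?_⟩
  rw [map_mul, map_pow, M.σ_x] at h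
  have hxk : x ^ k ≠ 0 := pow_ne_zero _ hx
  have h2 : σ b - b = x⁻¹ ^ k * (x ^ k * σ b - x ^ k * b) := by
    rw [inv_pow]; field_simp
  rw [h2, h]; ring

theorem ssa_sigma_mem12 (M : ss_Model π x σ σ0 P1 P2) {b : F0}
    (hb : b ∈ fc_chart A0 ({x, x⁻¹} : Set F0)) : σ b ∈ fc_chart A0 ({x, x⁻¹} : Set F0) := by
  obtain ⟨c, hc, h⟩ := ssa_sigma12 M hb
  have : σ b = b + algebraMap A0 F0 π * c := by rw [← h]; ring
  rw [this]
  exact add_mem hb (mul_mem (Subalgebra.algebraMap_mem _ π) hc)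

/-- `σ0 π = π e` with `e` a unit. -/
theorem ssa_sigma_pi (M : ss_Model π x σ σ0 P1 P2) : ∃ e : A0ˣ, σ0 π = π * e := by
  have hπ0 := ssa_pi_ne_zero' M
  obtain ⟨c1, hc1⟩ := M.σ0_triv π
  obtain ⟨c2, hc2⟩ := M.σ0_triv (σ0.symm π)
  rw [RingEquiv.apply_symm_apply] at hc2
  have h1 : σ0 π = π * (1 + c1) := by linear_combination hc1
  have h2 : σ0.symm π = π * (1 - c2) := by linear_combination -hc2
  have h3 : π = σ0 π * σ0 (1 - c2) := by
    have := congrArg σ0 h2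
    rwa [RingEquiv.apply_symm_apply, map_mul] at this
  have h4 : (1 + c1) * σ0 (1 - c2) = 1 := by
    apply mul_left_cancel₀ hπ0
    rw [mul_one, ← mul_assoc, ← h1, ← h3]
  exact ⟨⟨1 + c1, σ0 (1 - c2), h4, by rw [mul_comm]; exact h4⟩, h1⟩

/-- `σ` preserves the complement of a prime of the overlap chart containing `ϖ`. -/
theorem ssa_sigma_not_mem (M : ss_Model π x σ σ0 P1 P2)
    (P : Ideal (fc_chart A0 ({x, x⁻¹} : Set F0)))
    (hπP : algebraMap A0 (fc_chart A0 ({x, x⁻¹} : Set F0)) π ∈ P)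
    {b : fc_chart A0 ({x, x⁻¹} : Set F0)} (hb : b ∉ P) :
    (⟨σ (b : F0), ssa_sigma_mem12 M b.2⟩ : fc_chart A0 ({x, x⁻¹} : Set F0)) ∉ P := by
  intro h
  apply hb
  obtain ⟨c, hc, hbc⟩ := ssa_sigma12 M b.2
  have : b = ⟨σ (b : F0), ssa_sigma_mem12 M b.2⟩ -
      algebraMap A0 (fc_chart A0 ({x, x⁻¹} : Set F0)) π * ⟨c, hc⟩ := by
    apply Subtype.ext
    show (b : F0) = σ (b : F0) - algebraMap A0 F0 π * c
    rw [← hbc]; ring
  rw [this]
  exact P.sub_mem h (P.mul_mem_right _ hπP)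

/-- `σ` preserves the non-zero-divisors modulo `ϖ` of the overlap chart. -/
theorem ssa_sigma_S (M : ss_Model π x σ σ0 P1 P2) {s : F0}
    (hs : s ∈ sfc_S (fc_chart A0 ({x, x⁻¹} : Set F0)).toSubring (algebraMap A0 F0 π)) :
    σ s ∈ sfc_S (fc_chart A0 ({x, x⁻¹} : Set F0)).toSubring (algebraMap A0 F0 π) := by
  obtain ⟨c, hc, hsc⟩ := ssa_sigma12 M hs.1
  refine ⟨ssa_sigma_mem12 M hs.1, (map_ne_zero σ).2 hs.2.1, ?_⟩
  rintro b hb ⟨c', hc', h⟩
  apply hs.2.2 b hb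
  refine ⟨c' - c * b, sub_mem hc' (mul_mem hc hb), ?_⟩
  have : σ s = s + algebraMap A0 F0 π * c := by rw [← hsc]; ring
  rw [this] at h
  linear_combination h

/-- `σ` preserves the semilocal Gauss ring and is trivial on it modulo `ϖ`. -/
theorem ssa_sigma_O (M : ss_Model π x σ σ0 P1 P2) {z : F0}
    (hz : z ∈ sfc_O (fc_chart A0 ({x, x⁻¹} : Set F0)).toSubring (algebraMap A0 F0 π)) :
    σ z - z ∈ sfc_piO (fc_chart A0 ({x, x⁻¹} : Set F0)).toSubring (algebraMap A0 F0 π) := by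
  obtain ⟨s, hs, hsz⟩ := hz
  have hσs := ssa_sigma_S M hs
  obtain ⟨c1, hc1, h1⟩ := ssa_sigma12 M hsz
  obtain ⟨c2, hc2, h2⟩ := ssa_sigma12 M hs.1
  have hs0 : s ≠ 0 := hs.2.1
  have hσs0 : σ s ≠ 0 := hσs.2.1
  refine ⟨(s * c1 - s * z * c2) * (s * σ s)⁻¹, ⟨s * σ s, sfc_S_mul hs hσs, ?_⟩, ?_⟩
  · have : s * σ s * ((s * c1 - s * z * c2) * (s * σ s)⁻¹) = s * c1 - s * z * c2 := by
      field_simp
    rw [this]
    exact sub_mem (mul_mem hs.1 hc1) (mul_mem hsz hc2)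
  · rw [map_mul] at h1
    have e1 : σ s * σ z = s * z + algebraMap A0 F0 π * c1 := by linear_combination h1
    have e2 : σ s = s + algebraMap A0 F0 π * c2 := by linear_combination h2
    have hσz : σ z = (s * z + algebraMap A0 F0 π * c1) * (σ s)⁻¹ := by
      rw [← e1]; field_simp
    rw [hσz]
    field_simp
    rw [e2]
    ring

theorem ssa_sigma_mem_O (M : ss_Model π x σ σ0 P1 P2) {z : F0}
    (hz : z ∈ sfc_O (fc_chart A0 ({x, x⁻¹} : Set F0)).toSubring (algebraMap A0 F0 π)) :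
    σ z ∈ sfc_O (fc_chart A0 ({x, x⁻¹} : Set F0)).toSubring (algebraMap A0 F0 π) := by
  obtain ⟨s, hs, hsz⟩ := hz
  exact ⟨σ s, ssa_sigma_S M hs, by rw [← map_mul]; exact ssa_sigma_mem12 M hsz⟩

end Sigma

section AbstractCharts

/-! ### One component, abstract charts

The statements of this section are about arbitrary subalgebras `B1 ≤ B12` of `F0` (kept abstract
so that the kernel never has to unfold `fc_chart`). -/

variable {A0 : Type*} [CommRing A0] {F0 : Type v} [Field F0] [Algebra A0 F0]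

/-- integer powers of the image of a unit of `A0` come from `A0`. -/
theorem ssa_zpow_unit (e : A0ˣ) (k : ℤ) :
    algebraMap A0 F0 ((e ^ k : A0ˣ) : A0) = algebraMap A0 F0 (e : A0) ^ k := by
  have h1 : ∀ u : A0ˣ, ((Units.map ((algebraMap A0 F0 : A0 →+* F0) : A0 →* F0) u : F0ˣ) : F0) =
      algebraMap A0 F0 (u : A0) := fun u => by
    rw [Units.coe_map]; simp
  rw [← h1, map_zpow, Units.val_zpow_eq_zpow_val, h1]

variable {B1 B12 : Subalgebra A0 F0} (hle : B1 ≤ B12) {x : F0} (hx : x ≠ 0) (hx1 : x ∈ B1)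
  (hxinv : x⁻¹ ∈ B12) (hclear : ∀ z ∈ B12, ∃ k : ℕ, x ^ k * z ∈ B1) {π : A0}

include hle hx hx1 hxinv in
/-- `x` is a unit of the overlap chart: no power of it lies in a proper ideal. -/
theorem ssa_x_pow_not_mem (P : Ideal B12) (hP : P ≠ ⊤) (n : ℕ) :
    (⟨x, hle hx1⟩ : B12) ^ n ∉ P := by
  intro h
  have h1 : (1 : B12) = (⟨x⁻¹, hxinv⟩ : B12) ^ n * (⟨x, hle hx1⟩ : B12) ^ n := by
    apply Subtype.ext
    simp only [Subalgebra.coe_mul, Subalgebra.coe_pow, Subalgebra.coe_one]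
    rw [← mul_pow, inv_mul_cancel₀ hx, one_pow]
  exact hP ((Ideal.eq_top_iff_one _).2 (h1 ▸ P.mul_mem_left _ h))

include hx hx1 hxinv hclear in
/-- the trace on the first chart of a prime of the overlap chart which is locally generated by `ϖ`
is locally generated by `ϖ`. -/
theorem ssa_locQ (P : Ideal B12) [hP : P.IsPrime] {t0 : B12} (ht0 : t0 ∉ P)
    (hloc : ∀ z ∈ P, algebraMap A0 B12 π ∣ t0 * z) (z : B1)
    (hz : Subalgebra.inclusion hle z ∈ P) :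
    ∃ t : B1, Subalgebra.inclusion hle t ∉ P ∧ algebraMap A0 B1 π ∣ t * z := by
  obtain ⟨c0, hc0⟩ := hloc _ hz
  obtain ⟨k, hk⟩ := hclear t0 t0.2
  obtain ⟨j, hj⟩ := hclear c0 c0.2
  have hc0F : (t0 : F0) * (z : F0) = algebraMap A0 F0 π * (c0 : F0) :=
    congrArg Subtype.val hc0
  have ht : x ^ (k + j) * (t0 : F0) ∈ B1 := by
    have : x ^ (k + j) * (t0 : F0) = x ^ j * (x ^ k * (t0 : F0)) := by rw [pow_add]; ring
    rw [this]; exact mul_mem (pow_mem hx1 j) hk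
  have hc : x ^ (k + j) * (c0 : F0) ∈ B1 := by
    have : x ^ (k + j) * (c0 : F0) = x ^ k * (x ^ j * (c0 : F0)) := by rw [pow_add]; ring
    rw [this]; exact mul_mem (pow_mem hx1 k) hj
  refine ⟨⟨_, ht⟩, ?_, ⟨⟨_, hc⟩, ?_⟩⟩
  · intro hmem
    have h1 : Subalgebra.inclusion hle (⟨_, ht⟩ : B1) = (⟨x, hle hx1⟩ : B12) ^ (k + j) * t0 := by
      apply Subtype.ext
      simp only [Subalgebra.coe_mul, Subalgebra.coe_pow, Subalgebra.coe_inclusion]
    rw [h1] at hmem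
    rcases hP.mem_or_mem hmem with h | h
    · exact ssa_x_pow_not_mem hle hx hx1 hxinv P hP.ne_top _ h
    · exact ht0 h
  · apply Subtype.ext
    simp only [Subalgebra.coe_mul, Subalgebra.coe_algebraMap]
    rw [mul_assoc, hc0F]; ring

include hle hx hx1 hxinv hclear in
/-- **Vertical order zero, one component.** `P` a prime of the overlap chart containing `ϖ` which is
locally generated by `ϖ` (`t0 P ⊆ ϖ B₁₂` with `t0 ∉ P`); `σ` trivial modulo `ϖ` on `B₁₂` with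
`σ ϖ = ϖ e`, `e` a unit of `A0`: for every `G ≠ 0` the quotient `σ G / G` lies in the localisation
of `B₁₂` at `P`. -/
theorem ssa_local_abs [IsNoetherianRing B1] [IsFractionRing B1 F0]
    (hϖF : algebraMap A0 F0 π ≠ 0) (σ : F0 ≃+* F0)
    (hσ12 : ∀ b ∈ B12, ∃ c ∈ B12, σ b - b = algebraMap A0 F0 π * c)
    (e : A0ˣ) (hσϖ : σ (algebraMap A0 F0 π) = algebraMap A0 F0 π * algebraMap A0 F0 (e : A0))
    (P : Ideal B12) [hP : P.IsPrime] (hπP : algebraMap A0 B12 π ∈ P)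
    {t0 : B12} (ht0 : t0 ∉ P) (hloc : ∀ z ∈ P, algebraMap A0 B12 π ∣ t0 * z)
    {G : F0} (hG : G ≠ 0) :
    ∃ s : B12, s ∉ P ∧ (s : F0) * (σ G * G⁻¹) ∈ B12 := by
  classical
  have hσmem : ∀ b ∈ B12, σ b ∈ B12 := by
    intro b hb
    obtain ⟨c, hc, h⟩ := hσ12 b hb
    have : σ b = b + algebraMap A0 F0 π * c := by rw [← h]; ring
    rw [this]
    exact add_mem hb (mul_mem (Subalgebra.algebraMap_mem _ π) hc)
  have hσnot : ∀ b : B12, b ∉ P → (⟨σ (b : F0), hσmem _ b.2⟩ : B12) ∉ P := by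
    intro b hb h
    apply hb
    obtain ⟨c, hc, hbc⟩ := hσ12 _ b.2
    have : b = ⟨σ (b : F0), hσmem _ b.2⟩ - algebraMap A0 B12 π * ⟨c, hc⟩ := by
      apply Subtype.ext
      simp only [Subalgebra.coe_sub, Subalgebra.coe_mul, Subalgebra.coe_algebraMap]
      rw [← hbc]; ring
    rw [this]
    exact P.sub_mem h (P.mul_mem_right _ hπP)
  set Q : Ideal B1 := P.comap (Subalgebra.inclusion hle).toRingHom with hQ
  have hQprime : Q.IsPrime := Ideal.comap_isPrime _ P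
  have hmemQ : ∀ z : B1, z ∈ Q ↔ Subalgebra.inclusion hle z ∈ P := fun z => Iff.rfl
  have hϖQ : algebraMap A0 B1 π ∈ Q := by
    rw [hmemQ]
    have : Subalgebra.inclusion hle (algebraMap A0 B1 π) = algebraMap A0 B12 π := by
      apply Subtype.ext
      simp only [Subalgebra.coe_inclusion, Subalgebra.coe_algebraMap]
    rw [this]; exact hπP
  have hϖ0 : algebraMap A0 B1 π ≠ 0 := by
    intro h
    apply hϖF
    have := congrArg Subtype.val h
    simpa only [Subalgebra.coe_algebraMap, ZeroMemClass.coe_zero] using this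
  have hlocQ : ∀ z ∈ Q, ∃ t : B1, t ∉ Q ∧ algebraMap A0 B1 π ∣ t * z := fun z hz =>
    ssa_locQ hle hx hx1 hxinv hclear P ht0 hloc z ((hmemQ z).1 hz)
  obtain ⟨k, a, b, ha, hb, hGab⟩ := ssa_ord_at_frac F0 Q hϖQ hϖ0 hlocQ hG
  have hGab' : G * (b : F0) = algebraMap A0 F0 π ^ k * (a : F0) := hGab
  have hd := ssa_zpow_unit (F0 := F0) e k
  have ha0 : (a : F0) ≠ 0 := by
    intro h
    apply ha
    have : a = 0 := Subtype.ext h
    rw [this]; exact Q.zero_mem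
  have hb0 : (b : F0) ≠ 0 := by
    intro h
    apply hb
    have : b = 0 := Subtype.ext h
    rw [this]; exact Q.zero_mem
  have hσa : Subalgebra.inclusion hle a ∉ P := ha
  have hσb : Subalgebra.inclusion hle b ∉ P := hb
  have hσb' := hσnot _ hσb
  have hσG : σ G * σ (b : F0) =
      (algebraMap A0 F0 π * algebraMap A0 F0 (e : A0)) ^ k * σ (a : F0) := by
    have := congrArg σ hGab'
    rwa [map_mul, map_mul, map_zpow₀, hσϖ] at this
  refine ⟨⟨σ ((Subalgebra.inclusion hle b : B12) : F0), hσmem _ (Subalgebra.inclusion hle b).2⟩ *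
      Subalgebra.inclusion hle a, fun h => (hP.mem_or_mem h).elim hσb' hσa, ?_⟩
  have hkey : σ (b : F0) * (a : F0) * (σ G * G⁻¹) =
      algebraMap A0 F0 ((e ^ k : A0ˣ) : A0) * (σ (a : F0) * (b : F0)) := by
    have hσb0 : σ (b : F0) ≠ 0 := (map_ne_zero σ).2 hb0
    have hG1 : G = algebraMap A0 F0 π ^ k * (a : F0) * (b : F0)⁻¹ := by
      rw [← hGab']; field_simp
    have hσG1 : σ G = (algebraMap A0 F0 π * algebraMap A0 F0 (e : A0)) ^ k * σ (a : F0) *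
        (σ (b : F0))⁻¹ := by
      rw [← hσG]; field_simp
    have hπk : algebraMap A0 F0 π ^ k ≠ 0 := zpow_ne_zero _ hϖF
    rw [hd, hσG1, hG1, mul_zpow]
    field_simp
  have hgoal : ((⟨σ ((Subalgebra.inclusion hle b : B12) : F0),
      hσmem _ (Subalgebra.inclusion hle b).2⟩ * Subalgebra.inclusion hle a : B12) : F0) =
        σ (b : F0) * (a : F0) := by
    simp only [Subalgebra.coe_mul, Subalgebra.coe_inclusion]
  rw [hgoal, hkey]
  exact mul_mem (Subalgebra.algebraMap_mem _ _) (mul_mem (hσmem _ (hle a.2)) (hle b.2))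

omit hle hx hx1 hxinv hclear in
/-- when `ϖ B₁₂ = P1 ∩ P2`, an element outside `P1 ∪ P2` is a non-zero-divisor modulo `ϖ`
(`sfc_mem_S_of_inf` for a subalgebra). -/
theorem ssa_mem_S (P1 P2 : Ideal B12) [h1 : P1.IsPrime] [h2 : P2.IsPrime]
    (hrad : Ideal.span {algebraMap A0 B12 π} = P1 ⊓ P2) {s : B12} (hs1 : s ∉ P1) (hs2 : s ∉ P2) :
    (s : F0) ∈ sfc_S B12.toSubring (algebraMap A0 F0 π) := by
  refine ⟨s.2, fun h => hs1 ?_, ?_⟩
  · have : s = 0 := Subtype.ext h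
    rw [this]; exact P1.zero_mem
  · rintro b hb ⟨c, hc, h⟩
    have hmem : s * ⟨b, hb⟩ ∈ Ideal.span {algebraMap A0 B12 π} := by
      rw [Ideal.mem_span_singleton]
      refine ⟨⟨c, hc⟩, Subtype.ext ?_⟩
      simp only [Subalgebra.coe_mul, Subalgebra.coe_algebraMap]
      exact h
    rw [hrad] at hmem
    have hb1 : (⟨b, hb⟩ : B12) ∈ P1 := (h1.mem_or_mem hmem.1).resolve_left hs1
    have hb2 : (⟨b, hb⟩ : B12) ∈ P2 := (h2.mem_or_mem hmem.2).resolve_left hs2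
    have hb' : (⟨b, hb⟩ : B12) ∈ Ideal.span {algebraMap A0 B12 π} := by
      rw [hrad]; exact ⟨hb1, hb2⟩
    obtain ⟨c', hc'⟩ := Ideal.mem_span_singleton.1 hb'
    refine ⟨c', c'.2, ?_⟩
    have := congrArg Subtype.val hc'
    simpa only [Subalgebra.coe_mul, Subalgebra.coe_algebraMap] using this

omit hle hx hx1 hxinv hclear in
/-- an element of `F0` which lies in the localisations of `B₁₂` at both components lies in the
semilocal Gauss ring (prime avoidance, made explicit). -/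
theorem ssa_mem_O_of_two (P1 P2 : Ideal B12) [h1 : P1.IsPrime] [h2 : P2.IsPrime]
    (hrad : Ideal.span {algebraMap A0 B12 π} = P1 ⊓ P2) (h12 : ¬ P1 ≤ P2) (h21 : ¬ P2 ≤ P1)
    {g : F0} (hg1 : ∃ s : B12, s ∉ P1 ∧ (s : F0) * g ∈ B12)
    (hg2 : ∃ s : B12, s ∉ P2 ∧ (s : F0) * g ∈ B12) :
    g ∈ sfc_O B12.toSubring (algebraMap A0 F0 π) := by
  obtain ⟨s1, hs1, hs1g⟩ := hg1
  obtain ⟨s2, hs2, hs2g⟩ := hg2
  obtain ⟨t1, ht1, ht1'⟩ := SetLike.not_le_iff_exists.1 h12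
  obtain ⟨t2, ht2, ht2'⟩ := SetLike.not_le_iff_exists.1 h21
  have hs1' : s1 * t2 + s2 * t1 ∉ P1 := by
    intro h
    have h3 : s1 * t2 ∈ P1 := by
      have := P1.sub_mem h (P1.mul_mem_left s2 ht1)
      rwa [add_sub_cancel_right] at this
    exact (h1.mem_or_mem h3).elim hs1 ht2'
  have hs2' : s1 * t2 + s2 * t1 ∉ P2 := by
    intro h
    have h3 : s2 * t1 ∈ P2 := by
      have := P2.sub_mem h (P2.mul_mem_left s1 ht2)
      rwa [add_sub_cancel_left] at this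
    exact (h2.mem_or_mem h3).elim hs2 ht1'
  refine ⟨((s1 * t2 + s2 * t1 : B12) : F0), ssa_mem_S P1 P2 hrad hs1' hs2', ?_⟩
  have : ((s1 * t2 + s2 * t1 : B12) : F0) * g =
      (t2 : F0) * ((s1 : F0) * g) + (t1 : F0) * ((s2 : F0) * g) := by
    simp only [Subalgebra.coe_add, Subalgebra.coe_mul]; ring
  rw [this]
  exact add_mem (mul_mem t2.2 hs1g) (mul_mem t1.2 hs2g)

end AbstractCharts

section Core

variable {A0 : Type*} [CommRing A0] [IsDomain A0] [IsNoetherianRing A0]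
  {F0 : Type v} [Field F0] [Algebra A0 F0]
  {π : A0} {x : F0} {σ : F0 ≃+* F0} {σ0 : A0 ≃+* A0}
  {P1 P2 : Ideal (fc_chart A0 ({x, x⁻¹} : Set F0))}

theorem ssa_noeth1 (M : ss_Model π x σ σ0 P1 P2) :
    IsNoetherianRing (fc_chart A0 ({x} : Set F0)) := by
  have := fc_chart_isNoetherianRing (A0 := A0) (F0 := F0) {x}
    (by rw [Finset.coe_singleton]; exact M.hfin1)
  rwa [Finset.coe_singleton] at this

/-- **The vertical orders of `σ G / G` vanish**: `σ G / G` lies in the semilocal Gauss ring. -/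
theorem ssa_quot_mem (M : ss_Model π x σ σ0 P1 P2) {G : F0} (hG : G ≠ 0) :
    σ G * G⁻¹ ∈ sfc_O (fc_chart A0 ({x, x⁻¹} : Set F0)).toSubring (algebraMap A0 F0 π) := by
  have := M.isAlg
  have := ssa_noeth1 M
  have := M.prime1
  have := M.prime2
  have hx := ssa_x_ne_zero M
  have hϖF := ssa_pi_ne_zero M
  obtain ⟨e, he⟩ := ssa_sigma_pi M
  have hσϖ : σ (algebraMap A0 F0 π) = algebraMap A0 F0 π * algebraMap A0 F0 (e : A0) := by
    rw [M.σ_base, he, map_mul]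
  have hπmem : algebraMap A0 (fc_chart A0 ({x, x⁻¹} : Set F0)) π ∈ P1 ⊓ P2 := by
    rw [← M.hrad]; exact Ideal.subset_span rfl
  obtain ⟨t1, ht1, ht1'⟩ := SetLike.not_le_iff_exists.1 M.h12
  obtain ⟨t2, ht2, ht2'⟩ := SetLike.not_le_iff_exists.1 M.h21
  have hloc1 : ∀ z ∈ P1, algebraMap A0 (fc_chart A0 ({x, x⁻¹} : Set F0)) π ∣ t2 * z := by
    intro z hz
    rw [← Ideal.mem_span_singleton, M.hrad]
    exact ⟨P1.mul_mem_left _ hz, P2.mul_mem_right _ ht2⟩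
  have hloc2 : ∀ z ∈ P2, algebraMap A0 (fc_chart A0 ({x, x⁻¹} : Set F0)) π ∣ t1 * z := by
    intro z hz
    rw [← Ideal.mem_span_singleton, M.hrad]
    exact ⟨P1.mul_mem_right _ ht1, P2.mul_mem_left _ hz⟩
  refine ssa_mem_O_of_two P1 P2 M.hrad M.h12 M.h21 ?_ ?_
  · exact ssa_local_abs (fc_chart1_le x) hx (fc_x_mem_chart x) ssa_xinv_mem12
      (fun z hz => fc_clear1 hx hz) hϖF σ (fun b hb => ssa_sigma12 M hb) e hσϖ P1 hπmem.1 ht2'
      hloc1 hG
  · exact ssa_local_abs (fc_chart1_le x) hx (fc_x_mem_chart x) ssa_xinv_mem12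
      (fun z hz => fc_clear1 hx hz) hϖF σ (fun b hb => ssa_sigma12 M hb) e hσϖ P2 hπmem.2 ht1'
      hloc2 hG

/-- `σ g / g ≡ 1` modulo `ϖ` in the semilocal Gauss ring, for `g := σ G / G`. -/
theorem ssa_quot_sub_one (M : ss_Model π x σ σ0 P1 P2) {G : F0} (hG : G ≠ 0) :
    σ (σ G * G⁻¹) * (σ G * G⁻¹)⁻¹ - 1 ∈
      sfc_piO (fc_chart A0 ({x, x⁻¹} : Set F0)).toSubring (algebraMap A0 F0 π) := by
  have hg := ssa_quot_mem M hG
  have hginv : (σ G * G⁻¹)⁻¹ ∈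
      sfc_O (fc_chart A0 ({x, x⁻¹} : Set F0)).toSubring (algebraMap A0 F0 π) := by
    have := ssa_quot_mem M (inv_ne_zero hG)
    rwa [map_inv₀, ← mul_inv] at this
  have hσG : σ G ≠ 0 := (map_ne_zero σ).2 hG
  have hg0 : σ G * G⁻¹ ≠ 0 := mul_ne_zero hσG (inv_ne_zero hG)
  have h1 := sfc_piO_mul_left hginv (ssa_sigma_O M hg)
  have h2 : (σ G * G⁻¹)⁻¹ * (σ (σ G * G⁻¹) - σ G * G⁻¹) =
      σ (σ G * G⁻¹) * (σ G * G⁻¹)⁻¹ - 1 := by
    field_simp
  rwa [h2] at h1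

/-- **The abstract core**: for an `ss_Model`, if `h := σ²f · f / (σ f)²` has the local
factorisations `ss_LocAt` on both charts then `σ²f · f = c · gᵐ · (σ f)²`. -/
theorem ss_core_of_loc (M : ss_Model π x σ σ0 P1 P2) (m : ℕ) (hm : IsUnit (m : A0)) {f : F0}
    (hf : f ≠ 0)
    (hloc1 : ss_LocAt π x m (σ (σ f) * f * ((σ f) ^ 2)⁻¹) (fc_chart A0 ({x} : Set F0)))
    (hloc2 : ss_LocAt π x m (σ (σ f) * f * ((σ f) ^ 2)⁻¹) (fc_chart A0 ({x⁻¹} : Set F0))) :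
    ∃ (c : A0) (g : F0), g ≠ 0 ∧ σ (σ f) * f = algebraMap A0 F0 c * g ^ m * (σ f) ^ 2 := by
  have := M.isAlg
  have hσf : σ f ≠ 0 := (map_ne_zero σ).2 hf
  have h4a : σ (σ f) * f * ((σ f) ^ 2)⁻¹ - 1 ∈
      sfc_piO (fc_chart A0 ({x, x⁻¹} : Set F0)).toSubring (algebraMap A0 F0 π) := by
    have := ssa_quot_sub_one M hf
    have h2 : σ (σ f * f⁻¹) * (σ f * f⁻¹)⁻¹ = σ (σ f) * f * ((σ f) ^ 2)⁻¹ := by
      rw [map_mul, map_inv₀]
      field_simp
    rwa [h2] at this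
  obtain ⟨c, g, hg, hh⟩ := sfc_main_factor π (ssa_x_ne_zero M) m hm
    (σ (σ f) * f * ((σ f) ^ 2)⁻¹) M.hfin1 M.hnu M.hxS1 M.hxS2 hloc1 hloc2 h4a M.hH0
  refine ⟨c, g, hg, ?_⟩
  rw [← hh]
  field_simp

end Core

end Fermat.Agent.SS
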