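/-
Project SS (S34), core assembly, part 4 (helper6): from an `ss_Model` of a cover field
`E ⊆ L((X))` over `(A0, x) = (O, x)` to helper20's core statement `ss_CoreAt σ E m`.

* `ss_sigmaE σ E hE hE'` : the ring automorphism of `E` induced by `σ` on the coefficients;
* `ss_sigmaO O σ h h'`   : the ring automorphism of the valuation ring `O` induced by `σ`;
* `ss_coreAt_of_model`   : `ss_Model π x (ss_sigmaE …) (ss_sigmaO …) P1 P2` + the local
                           factorisations (`ss_LocAt` on both charts, cell [L]) ⟹ `ss_CoreAt σ E m`.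
-/
import Mathlib
import Fermat.Agent.SS.CoreSeam
import Fermat.Agent.SS.CoreAssembly

set_option autoImplicit false
set_option linter.unusedSectionVars false
set_option linter.unusedVariables false

noncomputable section

namespace Fermat.Agent.SS

open Fermat.Agent.JT3 AlgebraicCurve ModularCurve

section Sigma

variable {L : Type*} [Field L]

theorem ss_coeffMap_symm_apply (σ : L ≃+* L) (z : LaurentSeries L) :
    coeffMap (σ.symm : L →+* L) (coeffMap (σ : L →+* L) z) = z := by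
  rw [coeffMap_coeffMap]
  have : ((σ.symm : L →+* L).comp (σ : L →+* L)) = RingHom.id L := by
    ext a; simp
  rw [this, coeffMap_id]

theorem ss_coeffMap_apply_symm (σ : L ≃+* L) (z : LaurentSeries L) :
    coeffMap (σ : L →+* L) (coeffMap (σ.symm : L →+* L) z) = z := by
  rw [coeffMap_coeffMap]
  have : ((σ : L →+* L).comp (σ.symm : L →+* L)) = RingHom.id L := by
    ext a; simp
  rw [this, coeffMap_id]

/-- The ring automorphism of `E ⊆ L((X))` induced by `σ` on the coefficients. -/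
def ss_sigmaE (σ : L ≃+* L) (E : IntermediateField L (LaurentSeries L))
    (hE : ∀ z ∈ E, coeffMap (σ : L →+* L) z ∈ E)
    (hE' : ∀ z ∈ E, coeffMap (σ.symm : L →+* L) z ∈ E) : E ≃+* E where
  toFun z := ⟨coeffMap (σ : L →+* L) (z : LaurentSeries L), hE _ z.2⟩
  invFun z := ⟨coeffMap (σ.symm : L →+* L) (z : LaurentSeries L), hE' _ z.2⟩
  left_inv z := Subtype.ext (ss_coeffMap_symm_apply σ _)
  right_inv z := Subtype.ext (ss_coeffMap_apply_symm σ _)
  map_mul' a b := Subtype.ext (map_mul (coeffMap (σ : L →+* L)) _ _)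
  map_add' a b := Subtype.ext (map_add (coeffMap (σ : L →+* L)) _ _)

@[simp] theorem ss_sigmaE_coe (σ : L ≃+* L) (E : IntermediateField L (LaurentSeries L))
    (hE : ∀ z ∈ E, coeffMap (σ : L →+* L) z ∈ E)
    (hE' : ∀ z ∈ E, coeffMap (σ.symm : L →+* L) z ∈ E) (z : E) :
    ((ss_sigmaE σ E hE hE' z : E) : LaurentSeries L) =
      coeffMap (σ : L →+* L) (z : LaurentSeries L) := rfl

/-- The ring automorphism of the valuation ring `O` induced by `σ`. -/
def ss_sigmaO (O : ValuationSubring L) (σ : L ≃+* L) (h : ∀ z ∈ O, σ z ∈ O)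
    (h' : ∀ z ∈ O, σ.symm z ∈ O) : O ≃+* O where
  toFun z := ⟨σ (z : L), h _ z.2⟩
  invFun z := ⟨σ.symm (z : L), h' _ z.2⟩
  left_inv z := Subtype.ext (σ.symm_apply_apply _)
  right_inv z := Subtype.ext (σ.apply_symm_apply _)
  map_mul' a b := Subtype.ext (map_mul σ _ _)
  map_add' a b := Subtype.ext (map_add σ _ _)

@[simp] theorem ss_sigmaO_coe (O : ValuationSubring L) (σ : L ≃+* L) (h : ∀ z ∈ O, σ z ∈ O)
    (h' : ∀ z ∈ O, σ.symm z ∈ O) (z : O) : ((ss_sigmaO O σ h h' z : O) : L) = σ (z : L) := rfl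

end Sigma

section Inst

variable {L : Type*} [Field L] (O : ValuationSubring L) (σ : L ≃+* L)
  (E : IntermediateField L (LaurentSeries L))

/-- **From the model to the core.** -/
theorem ss_coreAt_of_model [IsNoetherianRing O]
    (hE : ∀ z ∈ E, coeffMap (σ : L →+* L) z ∈ E)
    (hE' : ∀ z ∈ E, coeffMap (σ.symm : L →+* L) z ∈ E)
    (h : ∀ z ∈ O, σ z ∈ O) (h' : ∀ z ∈ O, σ.symm z ∈ O)
    {π : O} {x : E} {P1 P2 : Ideal (fc_chart O ({x, x⁻¹} : Set E))}
    (M : ss_Model π x (ss_sigmaE σ E hE hE') (ss_sigmaO O σ h h') P1 P2)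
    (m : ℕ) (hm : IsUnit ((m : ℕ) : O))
    (hloc : ∀ f : E, f ≠ 0 → (∀ P : Place L E, (m : ℤ) ∣ P.ord f) →
      (∀ P : Place L E, P.ord f ≠ 0 → ss_RatPlace P) →
      ss_LocAt π x m (ss_sigmaE σ E hE hE' (ss_sigmaE σ E hE hE' f) * f *
          (ss_sigmaE σ E hE hE' f ^ 2)⁻¹) (fc_chart O ({x} : Set E)) ∧
        ss_LocAt π x m (ss_sigmaE σ E hE hE' (ss_sigmaE σ E hE hE' f) * f *
          (ss_sigmaE σ E hE hE' f ^ 2)⁻¹) (fc_chart O ({x⁻¹} : Set E))) :
    ss_CoreAt σ E m := by
  intro g hg hord hrat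
  obtain ⟨hl1, hl2⟩ := hloc g hg hord hrat
  obtain ⟨c, r, hr, hcr⟩ := ss_core_of_loc M m hm hg hl1 hl2
  refine ⟨(c : L), (r : LaurentSeries L), r.2, fun h0 => hr (Subtype.ext h0), ?_⟩
  have hcoe : ((algebraMap O E c : E) : LaurentSeries L) =
      algebraMap L (LaurentSeries L) (c : L) := rfl
  have := congrArg (fun z : E => (z : LaurentSeries L)) hcr
  simpa [hcoe] using this

end Inst

end Fermat.Agent.SS
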