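/-
Project SS (S34), leaf [KRULL] (helper6): a noetherian integrally closed domain is the intersection
of its localisations at the primes of height one, in the divisibility form

  `sskr_dvd : (∀ 𝔭 prime of height 1, ∃ s ∉ 𝔭, b ∣ s * a) → b ∣ a`.

Proof: an associated prime `𝔭 = (b : c)` of `R / b` has height one (`x := c / b` maps `𝔭` into `R`;
if `x 𝔭 ⊆ 𝔭` then `x` is integral, so `x ∈ R`, absurd; otherwise `t₀ 𝔭 ⊆ (r₀)` for some `r₀ ∈ 𝔭`,
`t₀ ∉ 𝔭`, so `𝔭` is minimal over `(r₀)` and Krull's principal ideal theorem applies).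
Prefix `sskr_`.
-/
import Mathlib

set_option autoImplicit false

namespace Fermat.Agent.SS

variable {R : Type*} [CommRing R] [IsDomain R] [IsNoetherianRing R] [IsIntegrallyClosed R]

/-- an associated prime of a nonzero principal ideal in a noetherian integrally closed domain has
height one. -/
theorem sskr_height_one {b c : R} (hb : b ≠ 0) (𝔭 : Ideal R) [h𝔭 : 𝔭.IsPrime]
    (hdef : ∀ r : R, r ∈ 𝔭 ↔ b ∣ r * c) : 𝔭.height = 1 := by
  classical
  have hb𝔭 : b ∈ 𝔭 := (hdef b).mpr ⟨c, rfl⟩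
  have hc : ¬ b ∣ c := by
    intro h
    apply h𝔭.ne_top
    rw [Ideal.eq_top_iff_one, hdef, one_mul]
    exact h
  have hne : 𝔭 ≠ ⊥ := fun h => hb (by rw [h] at hb𝔭; exact hb𝔭)
  -- the multiplier `t r = r c / b`
  choose! t ht using fun r (hr : r ∈ 𝔭) => (hdef r).mp hr
  -- Case distinction: is `t 𝔭 ⊆ 𝔭`?
  by_cases hcase : ∀ r ∈ 𝔭, t r ∈ 𝔭
  · -- `x = c / b` is integral
    exfalso
    set K := FractionRing R
    set x : K := algebraMap R K c / algebraMap R K b with hx
    have hbK : algebraMap R K b ≠ 0 := by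
      rw [Ne, IsFractionRing.to_map_eq_zero_iff]; exact hb
    have hxr : ∀ r ∈ 𝔭, x * algebraMap R K r = algebraMap R K (t r) := by
      intro r hr
      rw [hx, div_mul_eq_mul_div, div_eq_iff hbK, ← map_mul, ← map_mul, mul_comm c r, ht r hr,
        mul_comm]
    set N : Submodule R K := Submodule.map (Algebra.linearMap R K) 𝔭 with hN
    have hNbot : N ≠ ⊥ := by
      intro h
      apply hb
      have hmem : algebraMap R K b ∈ N := ⟨b, hb𝔭, rfl⟩
      rw [h, Submodule.mem_bot, IsFractionRing.to_map_eq_zero_iff] at hmem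
      exact hmem
    have hNfg : N.FG := (IsNoetherian.noetherian 𝔭).map _
    have hint : IsIntegral R x := by
      refine isIntegral_of_smul_mem_submodule N hNbot hNfg x ?_
      rintro _ ⟨r, hr, rfl⟩
      refine ⟨t r, hcase r hr, ?_⟩
      rw [smul_eq_mul]
      exact (hxr r hr).symm
    obtain ⟨y, hy⟩ := IsIntegrallyClosed.isIntegral_iff.mp hint
    apply hc
    refine ⟨y, ?_⟩
    have h1 : algebraMap R K c = algebraMap R K (b * y) := by
      rw [map_mul, hy, hx, mul_div_cancel₀ _ hbK]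
    exact IsFractionRing.injective R K h1
  · -- `𝔭` is minimal over a principal ideal
    push Not at hcase
    obtain ⟨r₀, hr₀, ht₀⟩ := hcase
    have hkey : ∀ r ∈ 𝔭, t r₀ * r = r₀ * t r := by
      intro r hr
      have h1 : b * (t r₀ * r) = b * (r₀ * t r) := by
        calc b * (t r₀ * r) = (b * t r₀) * r := by ring
          _ = (r₀ * c) * r := by rw [ht r₀ hr₀]
          _ = r₀ * (r * c) := by ring
          _ = r₀ * (b * t r) := by rw [ht r hr]
          _ = b * (r₀ * t r) := by ring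
      exact mul_left_cancel₀ hb h1
    have hmin : 𝔭 ∈ (Ideal.span {r₀}).minimalPrimes := by
      refine ⟨⟨h𝔭, ?_⟩, ?_⟩
      · rw [Ideal.span_le, Set.singleton_subset_iff]; exact hr₀
      · rintro 𝔮 ⟨h𝔮, hr𝔮⟩ h𝔮𝔭 r hr
        have h1 : t r₀ * r ∈ 𝔮 := by
          rw [hkey r hr]
          exact Ideal.mul_mem_right _ _ (hr𝔮 (Ideal.mem_span_singleton_self r₀))
        exact (h𝔮.mem_or_mem h1).resolve_left fun h => ht₀ (h𝔮𝔭 h)
    have hle : 𝔭.height ≤ 1 := Ideal.height_le_one_of_isPrincipal_of_mem_minimalPrimes _ 𝔭 hmin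
    refine le_antisymm hle ?_
    rw [Order.one_le_iff_pos, pos_iff_ne_zero, Ne, Ideal.height_eq_zero_iff_eq_bot]
    exact hne

/-- **[KRULL]**: divisibility can be tested at the primes of height one. -/
theorem sskr_dvd {a b : R} (hb : b ≠ 0)
    (h : ∀ 𝔭 : Ideal R, 𝔭.IsPrime → 𝔭.height = 1 → ∃ s : R, s ∉ 𝔭 ∧ b ∣ s * a) : b ∣ a := by
  by_contra hba
  set M := R ⧸ Ideal.span {b} with hM
  have hx : (Ideal.Quotient.mk (Ideal.span {b}) a : M) ≠ 0 := by
    rw [Ne, Ideal.Quotient.eq_zero_iff_mem, Ideal.mem_span_singleton]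
    exact hba
  obtain ⟨𝔭, hass, hle⟩ := exists_le_isAssociatedPrime_of_isNoetherianRing (R := R) _ hx
  rw [isAssociatedPrime_iff] at hass
  obtain ⟨h𝔭, y, hy⟩ := hass
  obtain ⟨c, rfl⟩ := Ideal.Quotient.mk_surjective y
  have hdef : ∀ r : R, r ∈ 𝔭 ↔ b ∣ r * c := by
    intro r
    rw [hy, Submodule.mem_colon_singleton, Submodule.mem_bot]
    have e : r • (Ideal.Quotient.mk (Ideal.span {b}) c) = Ideal.Quotient.mk (Ideal.span {b}) (r * c) := by
      rw [Algebra.smul_def, Ideal.Quotient.algebraMap_eq, ← map_mul]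
    rw [e, Ideal.Quotient.eq_zero_iff_mem, Ideal.mem_span_singleton]
  have := h𝔭
  have h1 := sskr_height_one hb 𝔭 hdef
  obtain ⟨s, hs, hsa⟩ := h 𝔭 h𝔭 h1
  apply hs
  apply hle
  rw [Submodule.mem_colon_singleton, Submodule.mem_bot]
  have e : s • (Ideal.Quotient.mk (Ideal.span {b}) a) = Ideal.Quotient.mk (Ideal.span {b}) (s * a) := by
    rw [Algebra.smul_def, Ideal.Quotient.algebraMap_eq, ← map_mul]
  rw [e, Ideal.Quotient.eq_zero_iff_mem, Ideal.mem_span_singleton]
  exact hsa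

end Fermat.Agent.SS
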