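/-
Project SS (S34), leaf [NODE] (helper6): a horizontal rational point through a node `u v = a`.

`R` a noetherian local domain, an algebra over the domain `O`, `π ∈ O`, `𝔪_R = (π, u, v)`,
`u v = a ∈ O`; `P : R →ₐ[O] O` a section ("an `O`-rational horizontal point through the node") with
`π ∣ P u`, `π ∣ P v`.  Then
* `ssn_ker`     : `ker P = (u - P u, v - P v)`;
* `ssn_smul`    : `P u • ker P ⊆ (u - P u)`  (from `u₀ (v - v₀) = - v (u - u₀)`): so `u - P u`
                  generates `ker P` at `ker P` itself and vanishes at no other horizontal prime;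
* `ssn_prime`   : a prime containing `u - P u` but not `P u` contains `ker P`.
No completion, no normal form.  Prefix `ssn_`.
-/
import Mathlib

set_option autoImplicit false
set_option linter.unusedSectionVars false

namespace Fermat.Agent.SS

open IsLocalRing

variable {O R : Type*} [CommRing O] [IsDomain O] [CommRing R] [Algebra O R]

section basic

variable {u v : R} {a : O} (huv : u * v = algebraMap O R a) (P : R →ₐ[O] O)

include huv in
/-- the key identity `u₀ (v - v₀) = - v (u - u₀)`. -/
theorem ssn_identity :
    algebraMap O R (P u) * (v - algebraMap O R (P v)) = - v * (u - algebraMap O R (P u)) := by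
  have h1 : P u * P v = a := by
    have := congrArg P huv
    rwa [map_mul, AlgHom.commutes, Algebra.algebraMap_self_apply] at this
  have h2 : algebraMap O R (P u) * algebraMap O R (P v) = u * v := by
    rw [← map_mul, h1, huv]
  linear_combination (-1 : R) * h2

theorem ssn_sub_mem_ker (x : R) : x - algebraMap O R (P x) ∈ RingHom.ker (P : R →+* O) := by
  rw [RingHom.mem_ker, map_sub]
  show P x - P (algebraMap O R (P x)) = 0
  rw [AlgHom.commutes, Algebra.algebraMap_self_apply, sub_self]

theorem ssn_span_le_ker :
    Ideal.span {u - algebraMap O R (P u), v - algebraMap O R (P v)} ≤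
      RingHom.ker (P : R →+* O) := by
  rw [Ideal.span_le]
  rintro x (rfl | hx)
  · exact ssn_sub_mem_ker P u
  · rw [Set.mem_singleton_iff] at hx
    subst hx
    exact ssn_sub_mem_ker P v

include huv in
/-- `P u • (u - u₀, v - v₀) ⊆ (u - u₀)`. -/
theorem ssn_smul_span {z : R}
    (hz : z ∈ Ideal.span {u - algebraMap O R (P u), v - algebraMap O R (P v)}) :
    ∃ w : R, algebraMap O R (P u) * z = (u - algebraMap O R (P u)) * w := by
  obtain ⟨x, y, rfl⟩ := Ideal.mem_span_pair.mp hz
  refine ⟨algebraMap O R (P u) * x - v * y, ?_⟩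
  have h := ssn_identity huv P
  linear_combination y * h

end basic

section local_

variable [IsLocalRing R] [IsNoetherianRing R] {π : O} {u v : R}
  (hm : maximalIdeal R = Ideal.span {algebraMap O R π, u, v}) (hπ : π ≠ 0)
  (P : R →ₐ[O] O) (hu : π ∣ P u) (hv : π ∣ P v)

omit [IsDomain O] [IsNoetherianRing R] in
theorem ssn_ker_le_maximalIdeal [Nontrivial O] : RingHom.ker (P : R →+* O) ≤ maximalIdeal R := by
  intro z hz
  rw [mem_maximalIdeal, mem_nonunits_iff]
  intro hzu
  rw [RingHom.mem_ker] at hz
  have := hzu.map (P : R →+* O)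
  rw [hz] at this
  exact not_isUnit_zero this

include hm hπ hu hv in
/-- **the kernel of a rational point through the node** is `(u - u₀, v - v₀)`. -/
theorem ssn_ker :
    RingHom.ker (P : R →+* O) =
      Ideal.span {u - algebraMap O R (P u), v - algebraMap O R (P v)} := by
  refine le_antisymm ?_ (ssn_span_le_ker P)
  set I : Ideal R := Ideal.span {u - algebraMap O R (P u), v - algebraMap O R (P v)} with hI
  set K : Ideal R := RingHom.ker (P : R →+* O) with hK
  have hπm : algebraMap O R π ∈ maximalIdeal R := by
    rw [hm]; exact Ideal.subset_span (by simp)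
  -- Nakayama: `K ≤ I ⊔ (π) • K`
  refine Submodule.le_of_le_smul_of_le_jacobson_bot (I := Ideal.span {algebraMap O R π})
    (IsNoetherian.noetherian K) ?_ ?_
  · rw [Ideal.span_le, Set.singleton_subset_iff]
    exact (IsLocalRing.maximalIdeal_le_jacobson ⊥) hπm
  · intro z hz
    have hzm : z ∈ maximalIdeal R := ssn_ker_le_maximalIdeal P hz
    rw [hm] at hzm
    obtain ⟨x, hx⟩ := Ideal.mem_span_insert.mp hzm
    obtain ⟨t, ht, hzt⟩ := hx
    obtain ⟨y, w, rfl⟩ := Ideal.mem_span_pair.mp ht
    obtain ⟨u', hu'⟩ := hu
    obtain ⟨v', hv'⟩ := hv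
    -- `z = π (x + u' y + v' w) + y (u - u₀) + w (v - v₀)`
    set z' : R := x + algebraMap O R u' * y + algebraMap O R v' * w with hz'
    have hdecomp : z = (y * (u - algebraMap O R (P u)) + w * (v - algebraMap O R (P v))) +
        algebraMap O R π * z' := by
      rw [hzt, hz', hu', hv', map_mul, map_mul]
      ring
    have hz'K : z' ∈ K := by
      have h0 : P z = 0 := hz
      have h1 : P (y * (u - algebraMap O R (P u)) + w * (v - algebraMap O R (P v))) = 0 := by
        have h2 := ssn_sub_mem_ker P u
        have h3 := ssn_sub_mem_ker P v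
        rw [RingHom.mem_ker] at h2 h3
        rw [map_add, map_mul, map_mul]
        have h2' : P (u - algebraMap O R (P u)) = 0 := h2
        have h3' : P (v - algebraMap O R (P v)) = 0 := h3
        rw [h2', h3', mul_zero, mul_zero, add_zero]
      rw [hdecomp, map_add, h1, zero_add, map_mul, AlgHom.commutes,
        Algebra.algebraMap_self_apply] at h0
      rw [hK, RingHom.mem_ker]
      exact (mul_eq_zero.mp h0).resolve_left hπ
    rw [hdecomp]
    refine Submodule.add_mem_sup ?_ ?_
    · rw [hI]
      exact Ideal.add_mem _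
        (Ideal.mul_mem_left _ _ (Ideal.subset_span (by simp)))
        (Ideal.mul_mem_left _ _ (Ideal.subset_span (by simp)))
    · exact Submodule.smul_mem_smul (Ideal.mem_span_singleton_self _) hz'K

end local_

section consequences

variable [IsLocalRing R] [IsNoetherianRing R] {π : O} {u v : R} {a : O}
  (hm : maximalIdeal R = Ideal.span {algebraMap O R π, u, v}) (hπ : π ≠ 0)
  (huv : u * v = algebraMap O R a)
  (P : R →ₐ[O] O) (hu : π ∣ P u) (hv : π ∣ P v)

include hm hπ huv hu hv in
/-- `P u • ker P ⊆ (u - P u)`. -/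
theorem ssn_smul {z : R} (hz : z ∈ RingHom.ker (P : R →+* O)) :
    ∃ w : R, algebraMap O R (P u) * z = (u - algebraMap O R (P u)) * w := by
  rw [ssn_ker hm hπ P hu hv] at hz
  exact ssn_smul_span huv P hz

include hm hπ huv hu hv in
/-- a prime containing `u - P u` but not the constant `P u` contains `ker P`. -/
theorem ssn_prime (𝔭 : Ideal R) [𝔭.IsPrime] (h1 : u - algebraMap O R (P u) ∈ 𝔭)
    (h2 : algebraMap O R (P u) ∉ 𝔭) : RingHom.ker (P : R →+* O) ≤ 𝔭 := by
  intro z hz
  obtain ⟨w, hw⟩ := ssn_smul hm hπ huv P hu hv hz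
  have : algebraMap O R (P u) * z ∈ 𝔭 := by rw [hw]; exact Ideal.mul_mem_right _ _ h1
  exact (Ideal.IsPrime.mem_or_mem inferInstance this).resolve_left h2

end consequences

end Fermat.Agent.SS
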