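/-
Project SS (S34), end files of the two covers (helper10; shape agreed with helper14, #1969 (C)):
THE CORE OVER NUMBER FIELDS `ss_CoreNF N q` / `ss_CoreNFH N q` FROM THE FINAL THEOREM OF CELL [M].

* `ss_nf_coreAt`      : the common step, for ONE number field `L1 ⊆ Q̄` and ANY cover field
                        `E ⊆ L1((X))`: `O = A ∩ L1` is a discrete valuation ring of residue
                        characteristic `q`, `m` prime to `q` is a unit of `O`; an `ss_Model` of `E` over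
                        `O` (any coordinate `x`, transcendental with `E / L1(x)` finite) gives
                        `ss_CoreAt σ E m`  (`ssl_coreAt_of_model`);
* `ss_nfl_ModelHyp`   : the shape of the final theorem of cell [M] for the Legendre cover
                        (`ssm_fl_model`, in existential form in `P1, P2`);
* `ss_nfl_coreNF`     : `ss_nfl_ModelHyp → ss_CoreNF N q` for `q` odd, `q ‖ N`  (`T = {ζ_{N/q}}`);
* `ss_nfl_coreNF_of`, `ss_nfh_coreNFH_of` : the same from a model hypothesis in which the provider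
                        chooses the finite set `T` and the coordinate `x` (robust form; Hesse twin).
-/
import Mathlib
import Fermat.Agent.SS.Local.Inst
import Fermat.Agent.SS.Model.GaussSigma
import Fermat.Agent.JT3.Inst.FunFieldFacts
import Fermat.Agent.JT3.Inst.Final

set_option autoImplicit false
set_option linter.unusedVariables false
set_option linter.unusedSectionVars false
set_option linter.style.haveILetI false

noncomputable section

namespace Fermat.Agent.SS

open Fermat.Agent.JT3 AlgebraicCurve ModularCurve IntermediateField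

local notation "Qb" => AlgebraicClosure ℚ

/-- the residue field of a local ring in whose maximal ideal the prime `ℓ` lies has characteristic
`ℓ` (twin of `lg_charP_residue`, restated to keep the imports light). -/
theorem ss_nfl_charP_residue {O : Type*} [CommRing O] [IsLocalRing O] {ℓ : ℕ} [hℓ : Fact ℓ.Prime]
    (h : ((ℓ : ℕ) : O) ∈ IsLocalRing.maximalIdeal O) : CharP (IsLocalRing.ResidueField O) ℓ := by
  have h0 : ((ℓ : ℕ) : IsLocalRing.ResidueField O) = 0 := by
    have h3 := (IsLocalRing.residue_eq_zero_iff ((ℓ : ℕ) : O)).mpr h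
    rwa [map_natCast] at h3
  obtain ⟨c, hc⟩ := CharP.exists (IsLocalRing.ResidueField O)
  have hdvd : c ∣ ℓ := (CharP.cast_eq_zero_iff (IsLocalRing.ResidueField O) c ℓ).mp h0
  rcases (Nat.dvd_prime hℓ.out).mp hdvd with h1 | h1
  · exact absurd h1 (CharP.char_ne_one (IsLocalRing.ResidueField O) c)
  · rwa [h1] at hc

/-- **The common step**: the core `ss_CoreAt σ E m` over one number field `L1 ⊆ Q̄`, for any cover
field `E`, from an `ss_Model` of `E` over `O = A ∩ L1`. -/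
theorem ss_nf_coreAt (A : ValuationSubring Qb) {q : ℕ} [Fact q.Prime] (hA : A.LiesOverPrime q)
    (L1 : IntermediateField ℚ Qb) (hfd : FiniteDimensional ℚ L1) (σ : L1 ≃ₐ[ℚ] L1)
    (hin : ss_Inert (A.comap (algebraMap L1 Qb)) σ.toRingEquiv)
    (E : IntermediateField L1 (LaurentSeries L1))
    (hE : ∀ z ∈ E, coeffMap (σ.toRingEquiv : ↥L1 →+* ↥L1) z ∈ E)
    (hE' : ∀ z ∈ E, coeffMap (σ.toRingEquiv.symm : ↥L1 →+* ↥L1) z ∈ E)
    (hM : ∀ [NumberField ↥L1] [IsDiscreteValuationRing ↥(A.comap (algebraMap ↥L1 Qb))]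
      [CharP (IsLocalRing.ResidueField ↥(A.comap (algebraMap ↥L1 Qb))) q]
      (π : ↥(A.comap (algebraMap ↥L1 Qb))) (hπ : Irreducible π)
      (h : ∀ z ∈ A.comap (algebraMap ↥L1 Qb), σ.toRingEquiv z ∈ A.comap (algebraMap ↥L1 Qb))
      (h' : ∀ z ∈ A.comap (algebraMap ↥L1 Qb),
        σ.toRingEquiv.symm z ∈ A.comap (algebraMap ↥L1 Qb)),
      ∃ x : E, Transcendental ↥L1 x ∧ FiniteDimensional ↥L1⟮x⟯ E ∧
        ∃ P1 P2 : Ideal (fc_chart ↥(A.comap (algebraMap ↥L1 Qb)) ({x, x⁻¹} : Set E)),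
          ss_Model π x (ss_sigmaE σ.toRingEquiv E hE hE')
            (ss_sigmaO (A.comap (algebraMap ↥L1 Qb)) σ.toRingEquiv h h') P1 P2)
    (m : ℕ) (hqm : ¬ q ∣ m) : ss_CoreAt σ.toRingEquiv E m := by
  have hq : q.Prime := Fact.out
  haveI : NumberField ↥L1 := { to_charZero := inferInstance, to_finiteDimensional := hfd }
  haveI hdvr : IsDiscreteValuationRing ↥(A.comap (algebraMap ↥L1 Qb)) :=
    dsc_isDVR_comap_numberField A q hA hq.ne_zero ↥L1
  obtain ⟨π, hπ⟩ := IsDiscreteValuationRing.exists_irreducible ↥(A.comap (algebraMap ↥L1 Qb))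
  have hmem := lg_natCast_mem_maximalIdeal A hA ↥L1
  haveI : CharP (IsLocalRing.ResidueField ↥(A.comap (algebraMap ↥L1 Qb))) q :=
    ss_nfl_charP_residue hmem
  have hmu : IsUnit ((m : ℕ) : ↥(A.comap (algebraMap ↥L1 Qb))) :=
    lg_isUnit_natCast hmem ((Nat.Prime.coprime_iff_not_dvd hq).2 hqm).symm
  have h : ∀ z ∈ A.comap (algebraMap ↥L1 Qb), σ.toRingEquiv z ∈ A.comap (algebraMap ↥L1 Qb) :=
    fun z hz => ssm_gs_mem hin hz
  have h' : ∀ z ∈ A.comap (algebraMap ↥L1 Qb),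
      σ.toRingEquiv.symm z ∈ A.comap (algebraMap ↥L1 Qb) :=
    fun z hz => ssm_gs_mem (ssm_gs_inert_symm _ _ hin) hz
  obtain ⟨x, hx, hfin, P1, P2, M⟩ := hM π hπ h h'
  haveI := hfin
  exact ssl_coreAt_of_model (A.comap (algebraMap ↥L1 Qb)) σ.toRingEquiv E hE hE' h h' hπ hx M m
    hmu

/-! ### the Legendre cover -/

/-- **The shape of the final theorem of cell [M], Legendre cover** (existential in `P1, P2`). -/
def ss_nfl_ModelHyp : Prop :=
  ∀ (L : Type) [Field L] [NumberField L] [Algebra L Qb] (O : ValuationSubring L)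
    [IsDiscreteValuationRing O] {π : O} (hπ : Irreducible π) (N' q : ℕ) [NeZero N'] [NeZero q]
    [Fact q.Prime] [CharP (IsLocalRing.ResidueField O) q] (hq2 : ¬ 2 ∣ q) (hqN' : ¬ q ∣ N')
    (ζ : L) (hζ : IsPrimitiveRoot ζ N') (σ : L ≃+* L) (hσ : ss_Inert O σ)
    (hE : ∀ z ∈ lg_E L (N' * q), coeffMap (σ : L →+* L) z ∈ lg_E L (N' * q))
    (hE' : ∀ z ∈ lg_E L (N' * q), coeffMap (σ.symm : L →+* L) z ∈ lg_E L (N' * q))
    (h : ∀ z ∈ O, σ z ∈ O) (h' : ∀ z ∈ O, σ.symm z ∈ O),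
    ∃ P1 P2 : Ideal (fc_chart O
        ({lg_lamE (N' * q), (lg_lamE (N' * q))⁻¹} : Set (lg_E L (N' * q)))),
      ss_Model π (lg_lamE (N' * q)) (ss_sigmaE σ (lg_E L (N' * q)) hE hE') (ss_sigmaO O σ h h')
        P1 P2

/-- **The core over number fields, Legendre cover, from the model.** -/
theorem ss_nfl_coreNF (hModel : ss_nfl_ModelHyp) (N : ℕ) [NeZero N] (q : ℕ) (hq : q.Prime)
    (hq2 : q ≠ 2) (hqN : q ∣ N) (hq2N : ¬ q ^ 2 ∣ N) : ss_CoreNF N q := by
  obtain ⟨N', hN'⟩ := hqN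
  rw [mul_comm] at hN'
  subst hN'
  haveI : Fact q.Prime := ⟨hq⟩
  haveI : NeZero q := ⟨hq.ne_zero⟩
  haveI : NeZero N' := ⟨fun h0 => NeZero.ne (N' * q) (by rw [h0, zero_mul])⟩
  have hq2' : ¬ 2 ∣ q := fun h2 => hq2 ((Nat.prime_dvd_prime_iff_eq Nat.prime_two hq).1 h2).symm
  have hqN' : ¬ q ∣ N' := by
    rintro ⟨c, rfl⟩
    exact hq2N ⟨c, by ring⟩
  -- a primitive `N'`-th root of unity of `Q̄`
  obtain ⟨ζ', hζ'⟩ := HasEnoughRootsOfUnity.exists_primitiveRoot Qb N'
  intro A hA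
  refine ⟨{ζ'}, fun L1 hfd hn hT σ hin m hqm => ?_⟩
  have hζmem : ζ' ∈ L1 := hT (by simp)
  have hζ : IsPrimitiveRoot (⟨ζ', hζmem⟩ : ↥L1) N' :=
    (IsPrimitiveRoot.map_iff_of_injective (f := algebraMap ↥L1 Qb)
      (FaithfulSMul.algebraMap_injective ↥L1 Qb)).1 hζ'
  refine ss_nf_coreAt A hA L1 hfd σ hin (lg_E ↥L1 (N' * q))
    (fun z hz => ssm_gs_coeffMap_mem_E (N' * q) _ hz)
    (fun z hz => ssm_gs_coeffMap_mem_E (N' * q) _ hz) ?_ m hqm
  intro _ _ _ π hπ h h'
  obtain ⟨P1, P2, M⟩ := hModel ↥L1 (A.comap (algebraMap ↥L1 Qb)) hπ N' q hq2' hqN'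
    ⟨ζ', hζmem⟩ hζ σ.toRingEquiv hin _ _ h h'
  exact ⟨lg_lamE (N' * q), lgf_lam_transcendental ↥L1 (N' * q) two_ne_zero,
    lgf_finite ↥L1 (N' * q), P1, P2, M⟩

/-! ### the robust forms (the provider of the model chooses `T` and the coordinate) -/

/-- the family of cover fields is stable under the coefficientwise action -/
def ss_nf_Stable (E : ∀ L1 : IntermediateField ℚ Qb, IntermediateField L1 (LaurentSeries L1)) :
    Prop :=
  ∀ (L1 : IntermediateField ℚ Qb) (φ : ↥L1 →+* ↥L1) (z : LaurentSeries ↥L1),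
    z ∈ E L1 → coeffMap φ z ∈ E L1

/-- **The model over all sufficiently large number fields**, for a family `E` of cover fields:
for every place `A` over `q` there is a finite set `T ⊆ Q̄` such that over every number field
`L1 ⊇ T`, normal over `ℚ`, and every inert `σ`, the cover field `E L1` has an `ss_Model` over
`O = A ∩ L1` in some transcendental coordinate `x` with `E L1 / L1(x)` finite. -/
def ss_nf_ModelNF (q : ℕ)
    (E : ∀ L1 : IntermediateField ℚ Qb, IntermediateField L1 (LaurentSeries L1))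
    (hst : ss_nf_Stable E) : Prop :=
  ∀ A : ValuationSubring Qb, A.LiesOverPrime q →
    ∃ T : Finset Qb, ∀ L1 : IntermediateField ℚ Qb, FiniteDimensional ℚ L1 → Normal ℚ L1 →
      (↑T : Set Qb) ⊆ L1 →
      ∀ σ : L1 ≃ₐ[ℚ] L1, ss_Inert (A.comap (algebraMap L1 Qb)) σ.toRingEquiv →
      ∀ [NumberField ↥L1] [IsDiscreteValuationRing ↥(A.comap (algebraMap ↥L1 Qb))]
        [CharP (IsLocalRing.ResidueField ↥(A.comap (algebraMap ↥L1 Qb))) q]
        (π : ↥(A.comap (algebraMap ↥L1 Qb))) (hπ : Irreducible π)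
        (h : ∀ z ∈ A.comap (algebraMap ↥L1 Qb), σ.toRingEquiv z ∈ A.comap (algebraMap ↥L1 Qb))
        (h' : ∀ z ∈ A.comap (algebraMap ↥L1 Qb),
          σ.toRingEquiv.symm z ∈ A.comap (algebraMap ↥L1 Qb)),
        ∃ x : E L1, Transcendental ↥L1 x ∧ FiniteDimensional ↥L1⟮x⟯ (E L1) ∧
          ∃ P1 P2 : Ideal (fc_chart ↥(A.comap (algebraMap ↥L1 Qb)) ({x, x⁻¹} : Set (E L1))),
            ss_Model π x (ss_sigmaE σ.toRingEquiv (E L1) (fun z hz => hst L1 _ z hz)
                (fun z hz => hst L1 _ z hz))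
              (ss_sigmaO (A.comap (algebraMap ↥L1 Qb)) σ.toRingEquiv h h') P1 P2

/-- **the core over all sufficiently large number fields, for a family of cover fields.** -/
theorem ss_nf_core_of_modelNF {q : ℕ} (hq : q.Prime)
    (E : ∀ L1 : IntermediateField ℚ Qb, IntermediateField L1 (LaurentSeries L1))
    (hst : ss_nf_Stable E) (hM : ss_nf_ModelNF q E hst)
    (A : ValuationSubring Qb) (hA : A.LiesOverPrime q) :
    ∃ T : Finset Qb, ∀ L1 : IntermediateField ℚ Qb, FiniteDimensional ℚ L1 → Normal ℚ L1 →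
      (↑T : Set Qb) ⊆ L1 →
      ∀ σ : L1 ≃ₐ[ℚ] L1, ss_Inert (A.comap (algebraMap L1 Qb)) σ.toRingEquiv →
        ∀ m : ℕ, ¬ q ∣ m → ss_CoreAt σ.toRingEquiv (E L1) m := by
  haveI : Fact q.Prime := ⟨hq⟩
  obtain ⟨T, hT⟩ := hM A hA
  refine ⟨T, fun L1 hfd hn hTs σ hin m hqm => ?_⟩
  refine ss_nf_coreAt A hA L1 hfd σ hin (E L1) (fun z hz => hst L1 _ z hz)
    (fun z hz => hst L1 _ z hz) ?_ m hqm
  intro _ _ _ π hπ h h'
  exact hT L1 hfd hn hTs σ hin π hπ h h'

/-- the Legendre family is stable. -/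
theorem ss_nfl_stable (N : ℕ) [NeZero N] : ss_nf_Stable fun L1 => lg_E ↥L1 N :=
  fun L1 φ z hz => ssm_gs_coeffMap_mem_E N φ hz

/-- **`ss_CoreNF N q` from the model over all sufficiently large number fields** (robust form). -/
theorem ss_nfl_coreNF_of (N : ℕ) [NeZero N] {q : ℕ} (hq : q.Prime)
    (hM : ss_nf_ModelNF q (fun L1 => lg_E ↥L1 N) (ss_nfl_stable N)) : ss_CoreNF N q :=
  fun A hA => ss_nf_core_of_modelNF hq _ (ss_nfl_stable N) hM A hA

/-! ### the Hesse cover (robust form) -/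

/-- **`ss_CoreNFH N q` from the model over all sufficiently large number fields** (robust form;
the stability `hst` of the Hesse family under the coefficientwise action is `ssm_sgh_mem`). -/
theorem ss_nfh_coreNFH_of (N : ℕ) [NeZero N] {q : ℕ} (hq : q.Prime)
    (hst : ss_nf_Stable fun L1 => hs_E ↥L1 (three_ne_zero : (3 : ↥L1) ≠ 0) N)
    (hM : ss_nf_ModelNF q (fun L1 => hs_E ↥L1 (three_ne_zero : (3 : ↥L1) ≠ 0) N) hst) :
    ss_CoreNFH N q := by
  intro A hA
  obtain ⟨T, hT⟩ := ss_nf_core_of_modelNF hq _ hst hM A hA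
  exact ⟨T, fun L1 hfd hn hTs σ hin h3 m hqm => hT L1 hfd hn hTs σ hin m hqm⟩

end Fermat.Agent.SS
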