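/-
Project SS (S34), core assembly, part 3 (helper6): the function-field constructor of `ss_Model`.

`ss_model_of_funField`: for `A0` a discrete valuation ring with uniformiser `π`, `L = Frac A0` of
characteristic zero, `F0 / L` a function field with coordinate `x` (`x` transcendental,
`F0 / L(x)` finite, `L` algebraically closed in `F0`), the six GLOBAL fields of `ss_Model`
(`isAlg, hfin1, hnu, hxS1, hxS2, hH0`) hold automatically (helper12's `sfc_ff_*`); the cell [M]
only owes the two components, the action of `σ`, and the closed points.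
-/
import Mathlib
import Fermat.Agent.SS.CoreModel
import Fermat.Agent.SS.SFC.FunField

set_option autoImplicit false
set_option linter.unusedSectionVars false

namespace Fermat.Agent.SS

open Fermat.Agent.JT3 IntermediateField

universe v

section FunField

variable {A0 L : Type*} {F0 : Type v} [CommRing A0] [IsDomain A0] [IsDiscreteValuationRing A0]
  [Field L] [Field F0] [Algebra A0 L] [IsFractionRing A0 L] [Algebra L F0] [Algebra A0 F0]
  [IsScalarTower A0 L F0] [CharZero L]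

/-- **The function-field constructor of `ss_Model`.** -/
theorem ss_model_of_funField {π : A0} (hπ : Irreducible π) {x : F0} (hx : Transcendental L x)
    [FiniteDimensional L⟮x⟯ F0]
    (hconst : ∀ z : F0, IsAlgebraic L z → z ∈ (algebraMap L F0).range)
    {σ : F0 ≃+* F0} {σ0 : A0 ≃+* A0} {P1 P2 : Ideal (fc_chart A0 ({x, x⁻¹} : Set F0))}
    (prime1 : P1.IsPrime) (prime2 : P2.IsPrime)
    (hrad : Ideal.span {algebraMap A0 (fc_chart A0 ({x, x⁻¹} : Set F0)) π} = P1 ⊓ P2)
    (h12 : ¬ P1 ≤ P2) (h21 : ¬ P2 ≤ P1)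
    (σ_base : ∀ a : A0, σ (algebraMap A0 F0 a) = algebraMap A0 F0 (σ0 a))
    (σ0_triv : ∀ a : A0, π ∣ σ0 a - a) (σ_x : σ x = x)
    (σ_triv1 : ∀ b ∈ fc_chart A0 ({x} : Set F0), ∃ c ∈ fc_chart A0 ({x} : Set F0),
      σ b - b = algebraMap A0 F0 π * c)
    (σ_triv2 : ∀ b ∈ fc_chart A0 ({x⁻¹} : Set F0), ∃ c ∈ fc_chart A0 ({x⁻¹} : Set F0),
      σ b - b = algebraMap A0 F0 π * c)
    (pts1 : ∀ 𝔫 : Ideal (fc_chart A0 ({x} : Set F0)), 𝔫.IsMaximal →
      algebraMap A0 (fc_chart A0 ({x} : Set F0)) π ∈ 𝔫 →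
      ss_SmoothAt π (fc_chart A0 ({x} : Set F0)) 𝔫 ∨ ss_NodeAt π σ σ0 (fc_chart1_le x) P1 P2 𝔫)
    (pts2 : ∀ 𝔫 : Ideal (fc_chart A0 ({x⁻¹} : Set F0)), 𝔫.IsMaximal →
      algebraMap A0 (fc_chart A0 ({x⁻¹} : Set F0)) π ∈ 𝔫 →
      ss_SmoothAt π (fc_chart A0 ({x⁻¹} : Set F0)) 𝔫 ∨
        ss_NodeAt π σ σ0 (fc_chart2_le x) P1 P2 𝔫) :
    ss_Model π x σ σ0 P1 P2 := by
  have hxi : Transcendental L x⁻¹ := fun h => hx (IsAlgebraic.inv_iff.mp h)
  exact
    { isAlg := fc_ff_isAlgebraic (L := L) x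
      hfin1 := fc_ff_finite (L := L) hx
      hnu := sfc_ff_hnu (L := L) hπ hx
      hxS1 := sfc_ff_mem_S (L := L) hπ hx
      hxS2 := sfc_ff_mem_S (L := L) hπ hxi
      hH0 := fun z h1 h2 => fch_H0 x hx hconst z h1 h2
      prime1 := prime1
      prime2 := prime2
      hrad := hrad
      h12 := h12
      h21 := h21
      σ_base := σ_base
      σ0_triv := σ0_triv
      σ_x := σ_x
      σ_triv1 := σ_triv1
      σ_triv2 := σ_triv2
      pts1 := pts1
      pts2 := pts2 }

end FunField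

end Fermat.Agent.SS
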