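/-
Project SS (S34), leaf [TH] (helper6): THICKNESS ONE AT A NODE, the pure algebra.

`C` a domain, `q, v, θ, h ∈ C`, primes `P1 = (v, q)`, `P2 = (θ, q)` with `θ ∉ P1`, the identity
`v θ = q h` with `h ∉ P2` (the different has multiplicity one along the inseparable component) and
`q ^ k ∈ (θ)` for some `k` (the cover is étale in characteristic zero).  Then `θ ∣ q`:
`q = θ v'`, `P2 = (θ)`, `P1 = (v')`, `v = v' h` — the local ring of the model at the node is
regular with `u v' = q`.  Prefix `ssth_`.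
-/
import Mathlib

set_option autoImplicit false

namespace Fermat.Agent.SS

variable {C : Type*} [CommRing C] [IsDomain C] {q v θ h : C} {P1 P2 : Ideal C}

/-- the descent step: `q ^ (j + 2) ∈ (θ) ⟹ q ^ (j + 1) ∈ (θ)`. -/
theorem ssth_step [P1.IsPrime] [P2.IsPrime] (hq0 : q ≠ 0)
    (hP1 : P1 ≤ Ideal.span {v, q}) (hqP1 : q ∈ P1)
    (hP2 : P2 ≤ Ideal.span {θ, q}) (hqP2 : q ∈ P2)
    (hθ1 : θ ∉ P1) (hvθ : v * θ = q * h) (hh : h ∉ P2) (j : ℕ)
    (hj : q ^ (j + 2) ∈ Ideal.span {θ}) : q ^ (j + 1) ∈ Ideal.span {θ} := by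
  rw [Ideal.mem_span_singleton'] at hj ⊢
  obtain ⟨c, hc⟩ := hj
  -- `v q^(j+1) = h c`
  have h1 : v * q ^ (j + 1) = h * c := by
    have : q * (v * q ^ (j + 1)) = q * (h * c) := by
      calc q * (v * q ^ (j + 1)) = v * q ^ (j + 2) := by ring
        _ = v * (c * θ) := by rw [hc]
        _ = c * (v * θ) := by ring
        _ = c * (q * h) := by rw [hvθ]
        _ = q * (h * c) := by ring
    exact mul_left_cancel₀ hq0 this
  -- `c ∈ P2`
  have hcP2 : c ∈ P2 := by
    have hmem : h * c ∈ P2 := by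
      rw [← h1, pow_succ]
      exact Ideal.mul_mem_left _ _ (Ideal.mul_mem_left _ _ hqP2)
    exact (Ideal.IsPrime.mem_or_mem inferInstance hmem).resolve_left hh
  obtain ⟨a, b, hab⟩ := Ideal.mem_span_pair.mp (hP2 hcP2)
  -- `q (q^(j+1) - θ b) = θ² a`
  have h2 : q * (q ^ (j + 1) - θ * b) = θ ^ 2 * a := by
    have : q ^ (j + 2) = (a * θ + b * q) * θ := by rw [hab, hc]
    calc q * (q ^ (j + 1) - θ * b) = q ^ (j + 2) - q * θ * b := by ring
      _ = (a * θ + b * q) * θ - q * θ * b := by rw [this]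
      _ = θ ^ 2 * a := by ring
  -- `a ∈ P1`
  have haP1 : a ∈ P1 := by
    have hmem : θ ^ 2 * a ∈ P1 := by
      rw [← h2]
      exact Ideal.mul_mem_right _ _ hqP1
    rcases Ideal.IsPrime.mem_or_mem inferInstance hmem with h3 | h3
    · exact absurd (Ideal.IsPrime.mem_of_pow_mem inferInstance 2 h3) hθ1
    · exact h3
  obtain ⟨a', a'', ha⟩ := Ideal.mem_span_pair.mp (hP1 haP1)
  refine ⟨b + h * a' + θ * a'', ?_⟩
  have h3 : q * (q ^ (j + 1) - θ * b) = q * (θ * (h * a' + θ * a'')) := by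
    rw [h2, ← ha]
    calc θ ^ 2 * (a' * v + a'' * q) = θ * a' * (v * θ) + q * θ ^ 2 * a'' := by ring
      _ = θ * a' * (q * h) + q * θ ^ 2 * a'' := by rw [hvθ]
      _ = q * (θ * (h * a' + θ * a'')) := by ring
  have h4 := mul_left_cancel₀ hq0 h3
  linear_combination (-1 : C) * h4

/-- **Thickness one**: `θ ∣ q`. -/
theorem ssth_main [P1.IsPrime] [P2.IsPrime] (hq0 : q ≠ 0)
    (hP1 : P1 ≤ Ideal.span {v, q}) (hqP1 : q ∈ P1)
    (hP2 : P2 ≤ Ideal.span {θ, q}) (hqP2 : q ∈ P2)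
    (hθ1 : θ ∉ P1) (hvθ : v * θ = q * h) (hh : h ∉ P2)
    (hk : ∃ k : ℕ, q ^ k ∈ Ideal.span {θ}) : q ∈ Ideal.span {θ} := by
  obtain ⟨k, hk⟩ := hk
  induction k with
  | zero =>
    rw [pow_zero, ← Ideal.eq_top_iff_one] at hk
    rw [hk]; trivial
  | succ k ih =>
    cases k with
    | zero => simpa using hk
    | succ j =>
      exact ih (ssth_step hq0 hP1 hqP1 hP2 hqP2 hθ1 hvθ hh j hk)

/-- **Regularity at the node**: `q = θ v'` with `P2 = (θ)`, `P1 = (v')`, `v = v' h`. -/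
theorem ssth_regular [P1.IsPrime] [P2.IsPrime] (hq0 : q ≠ 0)
    (hP1 : P1 = Ideal.span {v, q}) (hP2 : P2 = Ideal.span {θ, q})
    (hθ1 : θ ∉ P1) (hvθ : v * θ = q * h) (hh : h ∉ P2)
    (hk : ∃ k : ℕ, q ^ k ∈ Ideal.span {θ}) :
    ∃ v' : C, θ * v' = q ∧ v = v' * h ∧ P2 = Ideal.span {θ} ∧ P1 = Ideal.span {v'} := by
  have hqP1 : q ∈ P1 := by rw [hP1]; exact Ideal.subset_span (by simp)
  have hqP2 : q ∈ P2 := by rw [hP2]; exact Ideal.subset_span (by simp)
  have hθP2 : θ ∈ P2 := by rw [hP2]; exact Ideal.subset_span (by simp)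
  have hvP1 : v ∈ P1 := by rw [hP1]; exact Ideal.subset_span (by simp)
  have hmain := ssth_main hq0 hP1.le hqP1 hP2.le hqP2 hθ1 hvθ hh hk
  obtain ⟨v', hv'⟩ := Ideal.mem_span_singleton'.mp hmain
  have hθ0 : θ ≠ 0 := fun h0 => hθ1 (h0 ▸ P1.zero_mem)
  have hθv' : θ * v' = q := by rw [mul_comm]; exact hv'
  have hv : v = v' * h := by
    have : θ * v = θ * (v' * h) := by
      calc θ * v = v * θ := mul_comm _ _
        _ = q * h := hvθ
        _ = θ * (v' * h) := by rw [← hθv']; ring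
    exact mul_left_cancel₀ hθ0 this
  have hv'P1 : v' ∈ P1 := by
    have hmem : θ * v' ∈ P1 := by rw [hθv']; exact hqP1
    exact (Ideal.IsPrime.mem_or_mem inferInstance hmem).resolve_left hθ1
  refine ⟨v', hθv', hv, ?_, ?_⟩
  · apply le_antisymm
    · rw [hP2, Ideal.span_le]
      rintro x (rfl | hx)
      · exact Ideal.mem_span_singleton_self _
      · rw [Set.mem_singleton_iff] at hx
        subst hx
        exact hmain
    · rw [Ideal.span_le]
      rintro x rfl
      exact hθP2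
  · apply le_antisymm
    · rw [hP1, Ideal.span_le]
      rintro x (rfl | hx)
      · rw [SetLike.mem_coe, Ideal.mem_span_singleton']
        exact ⟨h, by rw [hv]; ring⟩
      · rw [Set.mem_singleton_iff] at hx
        subst hx
        rw [SetLike.mem_coe, Ideal.mem_span_singleton']
        exact ⟨θ, hθv'⟩
    · rw [Ideal.span_le]
      rintro x rfl
      exact hv'P1

end Fermat.Agent.SS
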