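/-
Project SS (S34), leaf [TH2] (helper6): the identity `v · F'(v) = q · h` and `h ∉ P2`.

`F ∈ S[X]` monic of degree `n`, `F(v) = 0` in the `S`-algebra `C`, `(n : S) = 1 + q`, and
`q ∣ F.coeff i` for `i < n`, `i ≠ 1` (i.e. `F ≡ X (X^(n-1) + a₁) mod q`).  Then
`v · F'(v) = q · h` for an explicit `h`, and for every ring homomorphism `ρ : C → D` into a domain
killing `q`, with `ρ v ≠ 0` and `1, ρ v, …, (ρ v)^(n-2)` linearly independent over the image of `S`:
`ρ h ≠ 0`.   Prefix `ssth_`.
-/
import Mathlib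

set_option autoImplicit false
set_option linter.unusedVariables false

namespace Fermat.Agent.SS

open Polynomial

section identity

variable {S : Type*} [CommRing S]

/-- `X F' - n F` has the coefficients `(k - n) F_k`. -/
theorem ssth_coeff_G (F : S[X]) (n : ℕ) (k : ℕ) :
    (X * derivative F - (n : S[X]) * F).coeff k = ((k : S) - (n : S)) * F.coeff k := by
  have h1 : (X * derivative F).coeff k = (k : S) * F.coeff k := by
    cases k with
    | zero => simp
    | succ j =>
      rw [coeff_X_mul, coeff_derivative]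
      push_cast
      ring
  have h2 : ((n : S[X]) * F).coeff k = (n : S) * F.coeff k := by
    rw [← C_eq_natCast, coeff_C_mul]
  rw [coeff_sub, h1, h2]
  ring

variable {C : Type*} [CommRing C] [Algebra S C]

/-- evaluation of a polynomial of degree `≤ n` as a sum over `range (n + 1)`. -/
theorem ssth_aeval_sum (G : S[X]) (n : ℕ) (hG : G.natDegree ≤ n) (v : C) :
    aeval v G = ∑ k ∈ Finset.range (n + 1), algebraMap S C (G.coeff k) * v ^ k := by
  rw [aeval_eq_sum_range' (Nat.lt_succ_of_le hG)]
  refine Finset.sum_congr rfl fun k _ => ?_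
  rw [Algebra.smul_def]

/-- **the identity** `v F'(v) = ∑_{k < n} (k - n) F_k v^k` for `F` monic of degree `n`, `F(v) = 0`. -/
theorem ssth_identity (F : S[X]) (hF : F.Monic) (n : ℕ) (hn : F.natDegree = n) (v : C)
    (hv : aeval v F = 0) :
    v * aeval v (derivative F) =
      ∑ k ∈ Finset.range n, algebraMap S C (((k : S) - (n : S)) * F.coeff k) * v ^ k := by
  set G : S[X] := X * derivative F - (n : S[X]) * F with hGdef
  have hGc : ∀ k, G.coeff k = ((k : S) - (n : S)) * F.coeff k := ssth_coeff_G F n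
  have hGdeg : G.natDegree ≤ n := by
    rw [natDegree_le_iff_coeff_eq_zero]
    intro k hk
    rw [hGc, coeff_eq_zero_of_natDegree_lt (by rw [hn]; exact hk), mul_zero]
  have h1 : aeval v G = v * aeval v (derivative F) := by
    rw [hGdef, map_sub, map_mul, map_mul, aeval_X, hv, mul_zero, sub_zero]
  rw [← h1, ssth_aeval_sum G n hGdeg v, Finset.sum_range_succ, hGc n, sub_self, zero_mul,
    map_zero, zero_mul, add_zero]
  exact Finset.sum_congr rfl fun k _ => by rw [hGc]

end identity

section main

variable {S C D : Type*} [CommRing S] [CommRing C] [CommRing D] [IsDomain D] [Algebra S C]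

/-- **[TH2]** the element `h` with `v F'(v) = q h` and `ρ h ≠ 0`. -/
theorem ssth_h (ρ : C →+* D) (q : S) (hρq : ρ (algebraMap S C q) = 0) (n : ℕ) (hn3 : 3 ≤ n)
    (F : S[X]) (hF : F.Monic) (hdeg : F.natDegree = n) (hnq : (n : S) = 1 + q)
    (hcoeff : ∀ i < n, i ≠ 1 → q ∣ F.coeff i) (v : C) (hFv : aeval v F = 0) (hv : ρ v ≠ 0)
    (hLI : ∀ c : ℕ → S, (∑ i ∈ Finset.range (n - 1), ρ (algebraMap S C (c i)) * ρ v ^ i = 0) →
      ∀ i < n - 1, ρ (algebraMap S C (c i)) = 0) :
    ∃ h : C, v * aeval v (derivative F) = algebraMap S C q * h ∧ ρ h ≠ 0 := by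
  classical
  set s : S →+* D := ρ.comp (algebraMap S C) with hs
  have hsq : s q = 0 := hρq
  -- the quotients `b k = F_k / q`
  choose! b hb using fun i (hi : i < n ∧ i ≠ 1) => hcoeff i hi.1 hi.2
  -- the coefficients of `h`
  set g : ℕ → S := fun k => if k = 1 then - F.coeff 1 else ((k : S) - (n : S)) * b k with hg
  have hgk : ∀ k < n, ((k : S) - (n : S)) * F.coeff k = q * g k := by
    intro k hk
    by_cases h1 : k = 1
    · subst h1
      simp only [hg, if_true]
      rw [hnq]
      push_cast
      ring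
    · simp only [hg, if_neg h1]
      rw [hb k ⟨hk, h1⟩]
      ring
  set h : C := ∑ k ∈ Finset.range n, algebraMap S C (g k) * v ^ k with hh
  have hid : v * aeval v (derivative F) = algebraMap S C q * h := by
    rw [ssth_identity F hF n hdeg v hFv, hh, Finset.mul_sum]
    refine Finset.sum_congr rfl fun k hk => ?_
    rw [hgk k (Finset.mem_range.mp hk), map_mul]
    ring
  refine ⟨h, hid, ?_⟩
  -- reduction of `F(v) = 0`: `v̄^n + s(a₁) v̄ = 0`
  have hsF : ∀ k < n, k ≠ 1 → s (F.coeff k) = 0 := by
    intro k hk h1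
    rw [hb k ⟨hk, h1⟩, map_mul, hsq, zero_mul]
  have hFbar : ρ v ^ n + s (F.coeff 1) * ρ v = 0 := by
    have h0 : ρ (aeval v F) = 0 := by rw [hFv, map_zero]
    rw [ssth_aeval_sum F n hdeg.le v, map_sum, Finset.sum_range_succ] at h0
    have hlead : F.coeff n = 1 := by rw [← hdeg]; exact hF.coeff_natDegree
    rw [hlead, map_one, one_mul, map_pow] at h0
    have hsum : ∑ k ∈ Finset.range n, ρ (algebraMap S C (F.coeff k) * v ^ k) =
        s (F.coeff 1) * ρ v := by
      rw [Finset.sum_eq_single 1]
      · rw [map_mul, map_pow, pow_one]; rfl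
      · intro k hk h1
        rw [map_mul]
        have : ρ (algebraMap S C (F.coeff k)) = 0 := hsF k (Finset.mem_range.mp hk) h1
        rw [this, zero_mul]
      · intro h1
        exact absurd (Finset.mem_range.mpr (by omega)) h1
    rw [hsum] at h0
    rw [← h0]; ring
  -- `v̄^(n-1) = - s(a₁)`
  have hpow : ρ v ^ (n - 1) = - s (F.coeff 1) := by
    have : ρ v * (ρ v ^ (n - 1) + s (F.coeff 1)) = 0 := by
      have hn1 : n = (n - 1) + 1 := by omega
      calc ρ v * (ρ v ^ (n - 1) + s (F.coeff 1)) = ρ v ^ ((n - 1) + 1) + s (F.coeff 1) * ρ v := by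
            ring
        _ = 0 := by rw [← hn1]; exact hFbar
    have h2 := (mul_eq_zero.mp this).resolve_left hv
    exact eq_neg_of_add_eq_zero_left h2
  have hsa1 : s (F.coeff 1) ≠ 0 := by
    intro h0
    rw [h0, neg_zero] at hpow
    exact hv (pow_eq_zero_iff (by omega) |>.mp hpow)
  -- the coefficient vector in the basis `1, v̄, …, v̄^(n-2)`
  intro hρh
  set c : ℕ → S := fun k => if k = 0 then g 0 - g (n - 1) * F.coeff 1 else g k with hc
  have hsum : ∑ i ∈ Finset.range (n - 1), ρ (algebraMap S C (c i)) * ρ v ^ i = 0 := by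
    have hn1 : n = (n - 1) + 1 := by omega
    have h1 : ρ h = ∑ k ∈ Finset.range ((n - 1) + 1), s (g k) * ρ v ^ k := by
      rw [← hn1, hh, map_sum]
      refine Finset.sum_congr rfl fun k _ => ?_
      rw [map_mul, map_pow]; rfl
    rw [Finset.sum_range_succ, hpow] at h1
    have hpos : 0 < n - 1 := by omega
    have h2 : ∑ i ∈ Finset.range (n - 1), ρ (algebraMap S C (c i)) * ρ v ^ i =
        (∑ k ∈ Finset.range (n - 1), s (g k) * ρ v ^ k) + s (g (n - 1)) * (- s (F.coeff 1)) := by
      obtain ⟨m, hm⟩ : ∃ m, n - 1 = m + 1 := ⟨n - 2, by omega⟩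
      rw [hm, Finset.sum_range_succ', Finset.sum_range_succ' (fun k => s (g k) * ρ v ^ k)]
      have e1 : ∀ i, ρ (algebraMap S C (c (i + 1))) = s (g (i + 1)) := by
        intro i
        simp only [hc, if_neg (Nat.succ_ne_zero i)]
        rfl
      have e0 : ρ (algebraMap S C (c 0)) = s (g 0) - s (g (m + 1)) * s (F.coeff 1) := by
        simp only [hc, if_true]
        rw [hm]
        show s (g 0 - g (m + 1) * F.coeff 1) = _
        rw [map_sub, map_mul]
      simp only [e1, e0, pow_zero, mul_one]
      rw [← hm]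
      ring
    rw [h2, ← h1, hρh]
  have h1 := hLI c hsum 1 (by omega)
  have hc1 : c 1 = - F.coeff 1 := by
    simp only [hc, hg, if_neg one_ne_zero, if_true]
  rw [hc1, map_neg, map_neg, neg_eq_zero] at h1
  exact hsa1 h1

end main

end Fermat.Agent.SS
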