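/-
Project SS (S34), end file of the Hesse cover (helper10; twin of `ss_nfl_coreNF` of
`SS/CoreNFLeg.lean`, with the hypotheses `2 ∣ N`, `¬ 4 ∣ N` threaded as the SS architect asked in
#2036): THE CORE OVER NUMBER FIELDS `ss_CoreNFH N 2` FROM THE FINAL THEOREM OF CELL [M], HESSE COVER.

* `ss_nfh_ModelHyp`  : the shape of the final theorem of cell [M] for the Hesse cover, `q = 2`,
                       Option-M coordinate `x = μ − 1`, level `N' * 2` with `N'` odd, a primitive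
                       `3N'`-th root of unity in `L` (existential in `P1, P2`);
* `ss_nfh_coreNFH`   : `ss_nfh_ModelHyp → 2 ∣ N → ¬ 2 ^ 2 ∣ N → ss_CoreNFH N 2`
                       (`T = {ζ_{3N'}}`, `N' = N / 2`): this is the argument `hTwo` of
                       `ss_S34_of_core`, verbatim binder order.
(The robust form `ss_nfh_coreNFH_of` of `SS/CoreNFLeg.lean` stays available: a provider of
`ss_nf_ModelNF 2 _ (ssm_sgh_stable N)` may assume `2 ∣ N`, `¬ 2 ^ 2 ∣ N` in his own theorem.)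
Prefix `ss_nfh_`.
-/
import Mathlib
import Fermat.Agent.SS.CoreNFLeg
import Fermat.Agent.SS.Model.SigmaHesse
import Fermat.Agent.JT3.Inst.HesseFunFieldFacts

set_option autoImplicit false
set_option linter.unusedVariables false
set_option linter.unusedSectionVars false
set_option linter.style.haveILetI false

noncomputable section

namespace Fermat.Agent.SS

open Fermat.Agent.JT3 AlgebraicCurve ModularCurve IntermediateField

local notation "Qb" => AlgebraicClosure ℚ

section Coord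

variable (L : Type*) [Field L] [CharZero L] (h3 : (3 : L) ≠ 0) (N : ℕ) [NeZero N]

/-- `k(m - 1) = k(m)`. -/
theorem ss_nfh_adjoin_eq (k : Type*) {F : Type*} [Field k] [Field F] [Algebra k F] (m : F) :
    IntermediateField.adjoin k ({m - 1} : Set F) = IntermediateField.adjoin k ({m} : Set F) := by
  apply le_antisymm
  · rw [IntermediateField.adjoin_simple_le_iff]
    exact (IntermediateField.adjoin k ({m} : Set F)).sub_mem
      (IntermediateField.mem_adjoin_simple_self k m)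
      (IntermediateField.adjoin k ({m} : Set F)).one_mem
  · rw [IntermediateField.adjoin_simple_le_iff]
    have h2 := (IntermediateField.adjoin k ({m - 1} : Set F)).add_mem
      (IntermediateField.mem_adjoin_simple_self k (m - 1))
      (IntermediateField.adjoin k ({m - 1} : Set F)).one_mem
    rwa [sub_add_cancel] at h2

/-- `x = μ - 1` is transcendental over `L`. -/
theorem ss_nfh_transcendental : Transcendental L (hs_muE h3 N - 1) := by
  intro h
  apply hsf_mu_transcendental L h3 N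
  have : hs_muE h3 N = (hs_muE h3 N - 1) + 1 := by ring
  rw [this]
  exact h.add isAlgebraic_one

/-- the Hesse cover field is finite over `L(μ - 1)`. -/
theorem ss_nfh_finite :
    FiniteDimensional L⟮(hs_muE h3 N - 1 : ↥(hs_E L h3 N))⟯ ↥(hs_E L h3 N) := by
  rw [ss_nfh_adjoin_eq L]
  exact hsf_finite L h3 N

end Coord

/-- **The shape of the final theorem of cell [M], Hesse cover** (`q = 2`, coordinate `x = μ − 1`;
existential in `P1, P2`). -/
def ss_nfh_ModelHyp : Prop :=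
  ∀ (L : Type) [Field L] [NumberField L] [Algebra L Qb] (O : ValuationSubring L)
    [IsDiscreteValuationRing O] {π : O} (hπ : Irreducible π) (N' : ℕ) [NeZero N']
    [CharP (IsLocalRing.ResidueField O) 2] (hN' : ¬ 2 ∣ N')
    (ζ : L) (hζ : IsPrimitiveRoot ζ (3 * N')) (σ : L ≃+* L) (hσ : ss_Inert O σ)
    (hE : ∀ z ∈ hs_E L (three_ne_zero : (3 : L) ≠ 0) (N' * 2),
      coeffMap (σ : L →+* L) z ∈ hs_E L (three_ne_zero : (3 : L) ≠ 0) (N' * 2))
    (hE' : ∀ z ∈ hs_E L (three_ne_zero : (3 : L) ≠ 0) (N' * 2),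
      coeffMap (σ.symm : L →+* L) z ∈ hs_E L (three_ne_zero : (3 : L) ≠ 0) (N' * 2))
    (h : ∀ z ∈ O, σ z ∈ O) (h' : ∀ z ∈ O, σ.symm z ∈ O),
    ∃ P1 P2 : Ideal (fc_chart O
        ({hs_muE (three_ne_zero : (3 : L) ≠ 0) (N' * 2) - 1,
          (hs_muE (three_ne_zero : (3 : L) ≠ 0) (N' * 2) - 1)⁻¹} :
          Set (hs_E L (three_ne_zero : (3 : L) ≠ 0) (N' * 2)))),
      ss_Model π (hs_muE (three_ne_zero : (3 : L) ≠ 0) (N' * 2) - 1)
        (ss_sigmaE σ (hs_E L (three_ne_zero : (3 : L) ≠ 0) (N' * 2)) hE hE')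
        (ss_sigmaO O σ h h') P1 P2

/-- **The core over number fields, Hesse cover (`q = 2`), from the model.** -/
theorem ss_nfh_coreNFH (hModel : ss_nfh_ModelHyp) (N : ℕ) [NeZero N] (h2 : 2 ∣ N)
    (h4 : ¬ 2 ^ 2 ∣ N) : ss_CoreNFH N 2 := by
  obtain ⟨N', hN'⟩ := h2
  rw [mul_comm] at hN'
  subst hN'
  haveI : NeZero N' := ⟨fun h0 => NeZero.ne (N' * 2) (by rw [h0, zero_mul])⟩
  have hN'2 : ¬ 2 ∣ N' := by
    rintro ⟨c, rfl⟩
    exact h4 ⟨c, by ring⟩
  haveI : NeZero (3 * N') := ⟨Nat.mul_ne_zero (by norm_num) (NeZero.ne N')⟩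
  -- a primitive `3N'`-th root of unity of `Q̄`
  obtain ⟨ζ', hζ'⟩ := HasEnoughRootsOfUnity.exists_primitiveRoot Qb (3 * N')
  intro A hA
  refine ⟨{ζ'}, fun L1 hfd hn hT σ hin h3 m hqm => ?_⟩
  have hζmem : ζ' ∈ L1 := hT (by simp)
  have hζ : IsPrimitiveRoot (⟨ζ', hζmem⟩ : ↥L1) (3 * N') :=
    (IsPrimitiveRoot.map_iff_of_injective (f := algebraMap ↥L1 Qb)
      (FaithfulSMul.algebraMap_injective ↥L1 Qb)).1 hζ'
  refine ss_nf_coreAt A hA L1 hfd σ hin (hs_E ↥L1 h3 (N' * 2))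
    (fun z hz => ssm_sgh_mem h3 (N' * 2) _ hz)
    (fun z hz => ssm_sgh_mem h3 (N' * 2) _ hz) ?_ m hqm
  intro _ _ _ π hπ h h'
  obtain ⟨P1, P2, M⟩ := hModel ↥L1 (A.comap (algebraMap ↥L1 Qb)) hπ N' hN'2
    ⟨ζ', hζmem⟩ hζ σ.toRingEquiv hin (fun z hz => ssm_sgh_mem h3 (N' * 2) _ hz)
    (fun z hz => ssm_sgh_mem h3 (N' * 2) _ hz) h h'
  exact ⟨hs_muE h3 (N' * 2) - 1, ss_nfh_transcendental ↥L1 h3 (N' * 2),
    ss_nfh_finite ↥L1 h3 (N' * 2), P1, P2, M⟩

end Fermat.Agent.SS
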